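import Fermat.Agent.AV.Pic38.NormPic
import Fermat.Agent.AV.Cube82.Formula
import Fermat.Agent.AV.Box14.List
import Fermat.Agent.AV.ClosedPtsCurv31
import Fermat.Agent.AV.Var81.Wrap

/-
AV programme, bricks PIC-core + CUBE (glue).

* `picCalc`                     : the Picard group `Pic38.Pic` instantiates helper82's abstract
                                  Picard calculus `Cube82.PicCalc`;
* `sumDegree G hA l`            : `δ = [K(∏ l) : K(A)]`, the degree of the sum map of a list of
                                  curves (with dominant sum map);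
* `pow_map_schemeNsmul_of_rep`  : under the hypotheses of S26, for a symmetric class `ℓ`,
                                  `([n]^* ℓ)^δ = ℓ^(δ n²)` (Lemma D in `Pic` form = `NormPic`
                                  discharges `hnorm` of `Cube82.pow_map_schemeNsmul`); the
                                  representability hypothesis `hrep` is S25.
-/

set_option autoImplicit false
set_option linter.style.haveILetI false

universe u

open CategoryTheory CategoryTheory.Limits AlgebraicGeometry AlgebraicGeometry.RelPicard
  NeronModelInfra GoodReductionJacobian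

namespace Fermat.Agent.AV.Pic38

open Fermat.Agent.AV.Curv33

/-- `Pic38.Pic` as an instance of helper82's abstract Picard calculus. -/
noncomputable def picCalc : Cube82.PicCalc.{u + 1, u} where
  Pic := Pic
  map f := Pic.map f
  map_id X p := by rw [Pic.map_id]; rfl
  map_comp f g p := Pic.map_comp_apply f g p
  cls M hM := Pic.mk M hM
  cls_surjective p := Pic.ind (p := fun p => ∃ M hM, Pic.mk M hM = p) (fun M hM => ⟨M, hM, rfl⟩) p
  cls_eq_one_iff M hM := Pic.mk_eq_one_iff hM
  map_cls f M hM := Pic.map_mk f hM

/-- The zero ring is integrally closed. -/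
theorem isIntegrallyClosed_of_subsingleton (R : Type*) [CommRing R] [Subsingleton R] :
    IsIntegrallyClosed R := by
  haveI : Subsingleton (FractionRing R) := by
    refine ⟨fun a b => ?_⟩
    have h : (1 : FractionRing R) = 0 := by
      rw [← map_one (algebraMap R (FractionRing R)), Subsingleton.elim (1 : R) 0, map_zero]
    rw [← mul_one a, ← mul_one b, h, mul_zero, mul_zero]
  exact ⟨fun a b _ => Subsingleton.elim a b, fun {x} =>
    ⟨fun _ => ⟨0, Subsingleton.elim _ _⟩, fun _ => by
      rw [Subsingleton.elim x 0]; exact isIntegral_zero⟩⟩

/-- All rings of sections over affine opens of an integral smooth `K`-scheme are integrally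
closed (including the empty open). -/
theorem isIntegrallyClosed_sections_all {K : Type u} [Field K] {X : Scheme.{u}}
    (f : X ⟶ Spec (CommRingCat.of K)) [Smooth f] [IsIntegral X] (V : X.Opens)
    (hV : IsAffineOpen V) : IsIntegrallyClosed Γ(X, V) := by
  by_cases h : Nonempty V
  · exact Var81.isIntegrallyClosed_sections f hV
  · have hbot : V = ⊥ := by
      ext x
      simp only [TopologicalSpace.Opens.coe_bot, Set.mem_empty_iff_false, iff_false]
      exact fun hx => h ⟨⟨x, hx⟩⟩
    subst hbot
    exact isIntegrallyClosed_of_subsingleton _

variable {K : Type u} [Field K] [IsAlgClosed K] {A : Scheme.{u}}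
  {f : A ⟶ Spec (CommRingCat.of K)} (G : RelativeGroupLaw K f)

/-- The degree `δ = [K(∏ l) : K(A)]` of the sum map of a list of curves with dominant sum map
(`0` if infinite). -/
noncomputable def sumDegree (hA : AbelianSchemePropertyBundle K f)
    (l : List (CurveTo f (G.one (𝟙 (Spec (CommRingCat.of K)))))) [IsDominant (sumMap G l)] : ℕ :=
  haveI := Var81.isIntegral_of_bundle f hA
  haveI := Box14.isIntegral_prodObj l
  NormD43.degree (sumMap G l)

/-- **`[n]^* ℓ` up to `δ`-torsion** on an abelian variety in the sense of S26, with `δ` the degree
of the sum map of a list of curves through the origin whose Picard functors are representable. -/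
theorem pow_map_schemeNsmul_of_rep (hc : G.IsCommutative) (hA : AbelianSchemePropertyBundle K f)
    (l : List (CurveTo f (G.one (𝟙 (Spec (CommRingCat.of K)))))) [IsDominant (sumMap G l)]
    (hrep : ∀ X ∈ l, ∃ (D : RelativePic0Designation K X.c)
      (_ : RepresentsRelSubPic X.c X.ε (algEquivZeroCut X.c X.ε) D),
      IsSeparated D.toBase ∧ LocallyOfFiniteType D.toBase)
    (ℓ : Pic A) (hsym : Pic.map (G.inv f RelativeGroupLaw.idPoint).1 ℓ = ℓ) (n : ℕ) :
    Pic.map (G.schemeNsmul n) ℓ ^ sumDegree G hA l = ℓ ^ (sumDegree G hA l * n ^ 2) := by
  haveI := hA.smooth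
  haveI := hA.proper
  haveI : IsIntegral A := Var81.isIntegral_of_bundle f hA
  haveI : IsIntegral (prodObj l) := Box14.isIntegral_prodObj l
  haveI : IsIntegral (pullback f f) :=
    Var81.isIntegral_of_isPullback f f (IsPullback.of_hasPullback f f)
  haveI : IsProper (sumMap G l) := ClosedPtsCurv31.isProper_sumMap G l
  refine Cube82.pow_map_schemeNsmul picCalc G hc ℓ l hrep (sumDegree G hA l) ?_ hsym n
  intro M hM
  exact pow_degree_eq_one_of_map_eq_one (sumMap G l)
    (fun V hV => isIntegrallyClosed_sections_all f V hV) M hM

end Fermat.Agent.AV.Pic38
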