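/-
CELL AV (S26/S27), brick PIC-core, part 1: the action of units on local isomorphisms and the
`ratio` of two local isomorphisms with locally trivial source; gluing of local isomorphisms.
-/
import Fermat.Agent.Jac.ModGlue88.LocTriv

set_option autoImplicit false

universe u

open CategoryTheory AlgebraicGeometry TopologicalSpace Opposite

namespace Fermat.Agent.AV.Pic38

open Fermat.Agent.Jac.ModGlue88

variable {X : Scheme.{u}}

/-- Restriction of units of functions. -/
noncomputable def resU (X : Scheme.{u}) {W' W : X.Opens} (h : W' ≤ W) :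
    (Γ(X, W))ˣ →* (Γ(X, W'))ˣ :=
  Units.map (resO X h : Γ(X, W) →* Γ(X, W'))

@[simp] lemma resU_val {W' W : X.Opens} (h : W' ≤ W) (u : (Γ(X, W))ˣ) :
    ((resU X h u : (Γ(X, W'))ˣ) : Γ(X, W')) = resO X h u := rfl

@[simp] lemma resU_self (W : X.Opens) (u : (Γ(X, W))ˣ) : resU X (le_refl W) u = u := by
  ext; simp

@[simp] lemma resU_resU {W'' W' W : X.Opens} (h' : W'' ≤ W') (h : W' ≤ W) (u : (Γ(X, W))ˣ) :
    resU X h' (resU X h u) = resU X (h'.trans h) u := by
  ext; simp

namespace LocalIsoU

variable {M N P : X.Modules} {U U' : X.Opens}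

/-- The action of a unit on a local isomorphism. -/
noncomputable def smul (u : (Γ(X, U))ˣ) (α : LocalIso M N U) : LocalIso M N U :=
  (LocalIso.scalarUnit M U u).trans α

@[simp] lemma smul_hom (u : (Γ(X, U))ˣ) (α : LocalIso M N U) :
    (smul u α).hom = (LocalHom.scalar M U u).comp α.hom := rfl

lemma smul_hom' (u : (Γ(X, U))ˣ) (α : LocalIso M N U) :
    (smul u α).hom = α.hom.comp (LocalHom.scalar N U u) := by
  rw [smul_hom, LocalHom.scalar_comp]

@[simp] lemma one_smul (α : LocalIso M N U) : smul 1 α = α := by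
  apply LocalIso.ext
  simp

lemma mul_smul (u v : (Γ(X, U))ˣ) (α : LocalIso M N U) :
    smul (u * v) α = smul u (smul v α) := by
  apply LocalIso.ext
  rw [smul_hom, smul_hom, smul_hom, Units.val_mul, mul_comm, LocalHom.scalar_mul,
    LocalHom.comp_assoc]

lemma smul_trans (u : (Γ(X, U))ˣ) (α : LocalIso M N U) (β : LocalIso N P U) :
    (smul u α).trans β = smul u (α.trans β) := by
  apply LocalIso.ext
  simp [LocalHom.comp_assoc]

lemma trans_smul (u : (Γ(X, U))ˣ) (α : LocalIso M N U) (β : LocalIso N P U) :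
    α.trans (smul u β) = smul u (α.trans β) := by
  apply LocalIso.ext
  rw [LocalIso.trans_hom, smul_hom, smul_hom, LocalIso.trans_hom, ← LocalHom.comp_assoc,
    ← LocalHom.scalar_comp, LocalHom.comp_assoc]

lemma smul_restrict (u : (Γ(X, U))ˣ) (α : LocalIso M N U) (h : U' ≤ U) :
    (smul u α).restrict h = smul (resU X h u) (α.restrict h) := by
  apply LocalIso.ext
  simp

lemma symm_smul (u : (Γ(X, U))ˣ) (α : LocalIso M N U) :
    (smul u α).symm = smul u⁻¹ α.symm := by
  apply LocalIso.ext
  rw [LocalIso.symm_hom, smul_hom]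
  change α.inv.comp (LocalHom.scalar M U (u⁻¹ : (Γ(X, U))ˣ)) = _
  rw [LocalHom.scalar_comp]
  rfl

lemma smul_left_cancel (h : IsLocallyTrivial M U) {u v : (Γ(X, U))ˣ} {α : LocalIso M N U}
    (huv : smul u α = smul v α) : u = v := by
  have h1 : (smul u α).hom.comp α.inv = (smul v α).hom.comp α.inv := by rw [huv]
  rw [smul_hom, smul_hom, LocalHom.comp_assoc, LocalHom.comp_assoc, α.hom_inv_id,
    LocalHom.comp_id, LocalHom.comp_id] at h1
  exact Units.ext (LocalHom.scalar_injective h h1)

/-- Two local isomorphisms with locally trivial source differ by a unit. -/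
lemma exists_smul_eq (h : IsLocallyTrivial M U) (α β : LocalIso M N U) :
    ∃ u : (Γ(X, U))ˣ, β = smul u α := by
  obtain ⟨r, hr, -⟩ := LocalIso.existsUnique_unit h α β
  exact ⟨r, LocalIso.ext hr⟩

/-- The unit `u` with `β = u • α`. -/
noncomputable def ratio (h : IsLocallyTrivial M U) (α β : LocalIso M N U) : (Γ(X, U))ˣ :=
  (exists_smul_eq h α β).choose

lemma ratio_smul (h : IsLocallyTrivial M U) (α β : LocalIso M N U) :
    smul (ratio h α β) α = β :=
  ((exists_smul_eq h α β).choose_spec).symm

lemma ratio_eq_of_smul_eq (h : IsLocallyTrivial M U) {α β : LocalIso M N U} {u : (Γ(X, U))ˣ}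
    (hu : smul u α = β) : ratio h α β = u :=
  smul_left_cancel h ((ratio_smul h α β).trans hu.symm)

@[simp] lemma ratio_self (h : IsLocallyTrivial M U) (α : LocalIso M N U) : ratio h α α = 1 :=
  ratio_eq_of_smul_eq h (one_smul α)

lemma ratio_mul_ratio (h : IsLocallyTrivial M U) (α β γ : LocalIso M N U) :
    ratio h β γ * ratio h α β = ratio h α γ := by
  symm
  apply ratio_eq_of_smul_eq
  rw [mul_smul, ratio_smul, ratio_smul]

lemma ratio_symm (h : IsLocallyTrivial M U) (α β : LocalIso M N U) :
    ratio h β α = (ratio h α β)⁻¹ := by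
  have := ratio_mul_ratio h α β α
  rw [ratio_self] at this
  exact eq_inv_of_mul_eq_one_left this

lemma ratio_restrict (h : IsLocallyTrivial M U) (α β : LocalIso M N U) (hU : U' ≤ U) :
    ratio (h.mono hU) (α.restrict hU) (β.restrict hU) = resU X hU (ratio h α β) := by
  apply ratio_eq_of_smul_eq
  rw [← smul_restrict, ratio_smul]

lemma ratio_smul_right (h : IsLocallyTrivial M U) (α β : LocalIso M N U) (u : (Γ(X, U))ˣ) :
    ratio h α (smul u β) = u * ratio h α β := by
  apply ratio_eq_of_smul_eq
  rw [mul_smul, ratio_smul]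

lemma ratio_smul_left (h : IsLocallyTrivial M U) (α β : LocalIso M N U) (u : (Γ(X, U))ˣ) :
    ratio h (smul u α) β = u⁻¹ * ratio h α β := by
  apply ratio_eq_of_smul_eq
  rw [← mul_smul, mul_assoc, mul_comm _ u, ← mul_assoc, inv_mul_cancel, _root_.one_mul,
    ratio_smul]

lemma ratio_trans (h : IsLocallyTrivial M U) (α β : LocalIso M N U) (γ : LocalIso N P U) :
    ratio h (α.trans γ) (β.trans γ) = ratio h α β := by
  apply ratio_eq_of_smul_eq
  rw [← smul_trans, ratio_smul]

end LocalIsoU

end Fermat.Agent.AV.Pic38
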