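/-
CELL AV (S26/S27), brick PIC-core, part 2: local morphisms / isomorphisms over an open `U₀` form
a sheaf: extensionality and gluing on a cover of `U₀`.
-/
import Fermat.Agent.AV.Pic38.Units
import Fermat.Agent.Jac.ModGlue88.HomGlue

set_option autoImplicit false

universe u

open CategoryTheory AlgebraicGeometry TopologicalSpace Opposite

namespace Fermat.Agent.AV.Pic38

open Fermat.Agent.Jac.ModGlue88

variable {X : Scheme.{u}} {M N P : X.Modules}

section

variable {κ : Type*} (U : κ → X.Opens) (U₀ : X.Opens) (hU : ∀ i, U i ≤ U₀)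
  (hcover : U₀ ≤ iSup U)

include hcover in
/-- Local morphisms over `U₀` are determined by their restrictions to a cover of `U₀`. -/
lemma LocalHom.ext_of_cover {L L' : LocalHom M N U₀}
    (h : ∀ i, L.restrict (hU i) = L'.restrict (hU i)) : L = L' := by
  have huniq := LocalHom.existsUnique_glue U U₀ hU hcover (fun i => L.restrict (hU i))
    (fun i j => by rw [LocalHom.restrict_restrict, LocalHom.restrict_restrict])
  exact huniq.unique (fun _ => rfl) (fun i => (h i).symm)

include hcover in
/-- Local isomorphisms over `U₀` are determined by their restrictions to a cover of `U₀`. -/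
lemma LocalIso.ext_of_cover {α β : LocalIso M N U₀}
    (h : ∀ i, α.restrict (hU i) = β.restrict (hU i)) : α = β := by
  apply LocalIso.ext
  apply LocalHom.ext_of_cover U U₀ hU hcover
  intro i
  have := congrArg LocalIso.hom (h i)
  simpa using this

include hcover in
/-- A compatible family of local isomorphisms on a cover of `U₀` glues uniquely. -/
theorem LocalIso.existsUnique_glue (α : ∀ i, LocalIso M N (U i))
    (hα : ∀ i j, (α i).restrict (inf_le_left : U i ⊓ U j ≤ U i) =
      (α j).restrict (inf_le_right : U i ⊓ U j ≤ U j)) :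
    ∃! α₀ : LocalIso M N U₀, ∀ i, α₀.restrict (hU i) = α i := by
  obtain ⟨f, hf, -⟩ := LocalHom.existsUnique_glue U U₀ hU hcover (fun i => (α i).hom)
    (fun i j => by simpa using congrArg LocalIso.hom (hα i j))
  obtain ⟨g, hg, -⟩ := LocalHom.existsUnique_glue U U₀ hU hcover (fun i => (α i).inv)
    (fun i j => by simpa using congrArg LocalIso.inv (hα i j))
  have h1 : f.comp g = LocalHom.id M U₀ := by
    apply LocalHom.ext_of_cover U U₀ hU hcover
    intro i
    rw [LocalHom.restrict_comp, hf i, hg i, (α i).hom_inv_id, LocalHom.restrict_id]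
  have h2 : g.comp f = LocalHom.id N U₀ := by
    apply LocalHom.ext_of_cover U U₀ hU hcover
    intro i
    rw [LocalHom.restrict_comp, hf i, hg i, (α i).inv_hom_id, LocalHom.restrict_id]
  refine ⟨⟨f, g, h1, h2⟩, fun i => LocalIso.ext (hf i), fun β hβ => ?_⟩
  apply LocalIso.ext_of_cover U U₀ hU hcover
  intro i
  rw [hβ i]
  exact (LocalIso.ext (hf i)).symm

end

end Fermat.Agent.AV.Pic38
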