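/-
CELL AV (S26/S27), brick PIC-core, part 3: tensor structures.

Mathlib has no tensor product of sheaves of modules.  For invertible modules we encode
"`P` is a tensor product of `M` and `N`" by a `TensorStr M N P`: a bi-equivariant, restriction
compatible pairing on local trivialisations.  `TensorStr.ofCover` produces such a structure from
trivialisations on one open cover whose transition units multiply.
-/
import Fermat.Agent.AV.Pic38.GlueIso

set_option autoImplicit false

universe u

open CategoryTheory AlgebraicGeometry TopologicalSpace Opposite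

namespace Fermat.Agent.AV.Pic38

open Fermat.Agent.Jac.ModGlue88 LocalIsoU

variable {X : Scheme.{u}}

/-- Local trivialisations of a module over an open. -/
abbrev Triv (M : X.Modules) (U : X.Opens) : Type u := LocalIso (unitMod X) M U

/-- The unit `u` with `a' = u • a`, for two trivialisations. -/
noncomputable def tratio {M : X.Modules} {U : X.Opens} (a a' : Triv M U) : (Γ(X, U))ˣ :=
  ratio (IsLocallyTrivial.unitMod U) a a'

section tratio

variable {M N : X.Modules} {U U' : X.Opens}

lemma tratio_smul (a a' : Triv M U) : smul (tratio a a') a = a' := ratio_smul _ a a'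

lemma tratio_eq_of_smul_eq {a a' : Triv M U} {u : (Γ(X, U))ˣ} (hu : smul u a = a') :
    tratio a a' = u := ratio_eq_of_smul_eq _ hu

@[simp] lemma tratio_self (a : Triv M U) : tratio a a = 1 := ratio_self _ a

lemma tratio_mul_tratio (a a' a'' : Triv M U) : tratio a' a'' * tratio a a' = tratio a a'' :=
  ratio_mul_ratio _ a a' a''

lemma tratio_symm (a a' : Triv M U) : tratio a' a = (tratio a a')⁻¹ := ratio_symm _ a a'

lemma tratio_restrict (a a' : Triv M U) (h : U' ≤ U) :
    tratio (a.restrict h) (a'.restrict h) = resU X h (tratio a a') := ratio_restrict _ a a' h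

lemma tratio_smul_right (a a' : Triv M U) (u : (Γ(X, U))ˣ) :
    tratio a (smul u a') = u * tratio a a' := ratio_smul_right _ a a' u

lemma tratio_smul_left (a a' : Triv M U) (u : (Γ(X, U))ˣ) :
    tratio (smul u a) a' = u⁻¹ * tratio a a' := ratio_smul_left _ a a' u

lemma tratio_trans (a a' : Triv M U) (γ : LocalIso M N U) :
    tratio (a.trans γ) (a'.trans γ) = tratio a a' := ratio_trans _ a a' γ

lemma exists_smul_eq_triv (a a' : Triv M U) : ∃ u : (Γ(X, U))ˣ, a' = smul u a :=
  ⟨tratio a a', (tratio_smul a a').symm⟩

end tratio

/-- `P` is a tensor product of `M` and `N`: a pairing of local trivialisations, compatible with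
restriction and equivariant for the action of units in each variable. -/
structure TensorStr (M N P : X.Modules) where
  /-- the pairing on trivialisations -/
  τ : ∀ U : X.Opens, Triv M U → Triv N U → Triv P U
  τ_restrict : ∀ {U' U : X.Opens} (h : U' ≤ U) (a : Triv M U) (b : Triv N U),
    τ U' (a.restrict h) (b.restrict h) = (τ U a b).restrict h
  τ_smul_left : ∀ {U : X.Opens} (u : (Γ(X, U))ˣ) (a : Triv M U) (b : Triv N U),
    τ U (smul u a) b = smul u (τ U a b)
  τ_smul_right : ∀ {U : X.Opens} (u : (Γ(X, U))ˣ) (a : Triv M U) (b : Triv N U),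
    τ U a (smul u b) = smul u (τ U a b)

namespace TensorStr

variable {M N P M' N' P' : X.Modules}

/-- The tensor structure `𝒪 ⊗ M = M`. -/
noncomputable def unitLeft (M : X.Modules) : TensorStr (unitMod X) M M where
  τ _ a b := a.trans b
  τ_restrict _ _ _ := rfl
  τ_smul_left u a b := smul_trans u a b
  τ_smul_right u a b := trans_smul u a b

/-- Symmetry of tensor structures. -/
noncomputable def swap (t : TensorStr M N P) : TensorStr N M P where
  τ U b a := t.τ U a b
  τ_restrict h b a := t.τ_restrict h a b
  τ_smul_left u b a := t.τ_smul_right u a b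
  τ_smul_right u b a := t.τ_smul_left u a b

/-- Transport of a tensor structure along isomorphisms. -/
noncomputable def ofIso (t : TensorStr M N P) (eM : M ≅ M') (eN : N ≅ N') (eP : P ≅ P') :
    TensorStr M' N' P' where
  τ U a b := (t.τ U (a.trans (LocalIso.ofIso eM.symm U)) (b.trans (LocalIso.ofIso eN.symm U))).trans
    (LocalIso.ofIso eP U)
  τ_restrict h a b := by
    have := t.τ_restrict h (a.trans (LocalIso.ofIso eM.symm _)) (b.trans (LocalIso.ofIso eN.symm _))
    apply LocalIso.ext
    have h2 := congrArg LocalIso.hom this
    simp only [LocalIso.trans_hom, LocalIso.restrict_hom, LocalHom.restrict_comp] at h2 ⊢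
    rw [← h2]
    rfl
  τ_smul_left u a b := by
    rw [smul_trans, t.τ_smul_left, smul_trans]
  τ_smul_right u a b := by
    rw [smul_trans, t.τ_smul_right, smul_trans]

end TensorStr

end Fermat.Agent.AV.Pic38
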