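/-
CELL AV (S26/S27), brick PIC-core, part 4: a tensor structure from trivialisations on one open
cover whose transition units multiply (`CoverData.tensorStr`).
-/
import Fermat.Agent.AV.Pic38.TensorStr

set_option autoImplicit false

universe u

open CategoryTheory AlgebraicGeometry TopologicalSpace Opposite

namespace Fermat.Agent.AV.Pic38

open Fermat.Agent.Jac.ModGlue88 LocalIsoU

variable {X : Scheme.{u}}

/-- Trivialisations of `M`, `N`, `P` on a common open cover whose transition units multiply. -/
structure CoverData (M N P : X.Modules) where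
  ι : Type u
  W : ι → X.Opens
  cover : iSup W = ⊤
  a : ∀ i, Triv M (W i)
  b : ∀ i, Triv N (W i)
  c : ∀ i, Triv P (W i)
  coc : ∀ i j, tratio ((c i).restrict (inf_le_left : W i ⊓ W j ≤ W i))
        ((c j).restrict (inf_le_right : W i ⊓ W j ≤ W j)) =
      tratio ((a i).restrict (inf_le_left : W i ⊓ W j ≤ W i))
        ((a j).restrict (inf_le_right : W i ⊓ W j ≤ W j)) *
      tratio ((b i).restrict (inf_le_left : W i ⊓ W j ≤ W i))
        ((b j).restrict (inf_le_right : W i ⊓ W j ≤ W j))

namespace CoverData

variable {M N P : X.Modules} (D : CoverData M N P)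

/-- The candidate value of the pairing on `V ≤ W i`, computed in the chart `i`. -/
noncomputable def pieceAt (i : D.ι) (V : X.Opens) (hV : V ≤ D.W i) (x : Triv M V) (y : Triv N V) :
    Triv P V :=
  smul (tratio ((D.a i).restrict hV) x * tratio ((D.b i).restrict hV) y) ((D.c i).restrict hV)

lemma pieceAt_restrict (i : D.ι) {V' V : X.Opens} (hV : V ≤ D.W i) (h : V' ≤ V)
    (x : Triv M V) (y : Triv N V) :
    (D.pieceAt i V hV x y).restrict h =
      D.pieceAt i V' (h.trans hV) (x.restrict h) (y.restrict h) := by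
  unfold pieceAt
  rw [smul_restrict, map_mul, ← tratio_restrict, ← tratio_restrict]
  rfl

lemma coc_at (i j : D.ι) (V : X.Opens) (hi : V ≤ D.W i) (hj : V ≤ D.W j) :
    tratio ((D.c i).restrict hi) ((D.c j).restrict hj) =
      tratio ((D.a i).restrict hi) ((D.a j).restrict hj) *
      tratio ((D.b i).restrict hi) ((D.b j).restrict hj) := by
  have h := congrArg (resU X (le_inf hi hj)) (D.coc i j)
  rw [map_mul, ← tratio_restrict, ← tratio_restrict, ← tratio_restrict] at h
  exact h

lemma pieceAt_indep (i j : D.ι) (V : X.Opens) (hi : V ≤ D.W i) (hj : V ≤ D.W j)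
    (x : Triv M V) (y : Triv N V) : D.pieceAt i V hi x y = D.pieceAt j V hj x y := by
  unfold pieceAt
  conv_rhs => rw [← tratio_smul ((D.c i).restrict hi) ((D.c j).restrict hj), ← mul_smul,
    D.coc_at i j V hi hj]
  congr 1
  rw [← tratio_mul_tratio ((D.a i).restrict hi) ((D.a j).restrict hj) x,
    ← tratio_mul_tratio ((D.b i).restrict hi) ((D.b j).restrict hj) y]
  exact mul_mul_mul_comm _ _ _ _

lemma pieceAt_smul_left (i : D.ι) (V : X.Opens) (hV : V ≤ D.W i) (u : (Γ(X, V))ˣ)
    (x : Triv M V) (y : Triv N V) :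
    D.pieceAt i V hV (smul u x) y = smul u (D.pieceAt i V hV x y) := by
  unfold pieceAt
  rw [tratio_smul_right, ← mul_smul, mul_assoc]

lemma pieceAt_smul_right (i : D.ι) (V : X.Opens) (hV : V ≤ D.W i) (u : (Γ(X, V))ˣ)
    (x : Triv M V) (y : Triv N V) :
    D.pieceAt i V hV x (smul u y) = smul u (D.pieceAt i V hV x y) := by
  unfold pieceAt
  rw [tratio_smul_right, ← mul_smul, mul_left_comm]

lemma pieceAt_self (i : D.ι) : D.pieceAt i (D.W i) le_rfl (D.a i) (D.b i) = D.c i := by
  unfold pieceAt
  have h1 : (D.a i).restrict (le_refl (D.W i)) = D.a i := by apply LocalIso.ext; rfl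
  have h2 : (D.b i).restrict (le_refl (D.W i)) = D.b i := by apply LocalIso.ext; rfl
  have h3 : (D.c i).restrict (le_refl (D.W i)) = D.c i := by apply LocalIso.ext; rfl
  rw [h1, h2, h3, tratio_self, tratio_self, mul_one, LocalIsoU.one_smul]

lemma cover_le (U : X.Opens) : U ≤ ⨆ i, U ⊓ D.W i := by
  rw [← inf_iSup_eq, D.cover]
  exact le_inf le_rfl le_top

lemma pairing_exists (U : X.Opens) (x : Triv M U) (y : Triv N U) :
    ∃! z : Triv P U, ∀ i, z.restrict (inf_le_left : U ⊓ D.W i ≤ U) =
      D.pieceAt i (U ⊓ D.W i) inf_le_right (x.restrict inf_le_left) (y.restrict inf_le_left) := by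
  refine LocalIso.existsUnique_glue (fun i => U ⊓ D.W i) U (fun i => inf_le_left) (D.cover_le U)
    (fun i => D.pieceAt i (U ⊓ D.W i) inf_le_right (x.restrict inf_le_left)
      (y.restrict inf_le_left)) ?_
  intro i j
  rw [pieceAt_restrict, pieceAt_restrict]
  exact D.pieceAt_indep i j _ _ _ _ _

/-- The pairing attached to cover data. -/
noncomputable def pairing (U : X.Opens) (x : Triv M U) (y : Triv N U) : Triv P U :=
  (D.pairing_exists U x y).choose

lemma pairing_restrict_chart (U : X.Opens) (x : Triv M U) (y : Triv N U) (i : D.ι) :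
    (D.pairing U x y).restrict (inf_le_left : U ⊓ D.W i ≤ U) =
      D.pieceAt i (U ⊓ D.W i) inf_le_right (x.restrict inf_le_left) (y.restrict inf_le_left) :=
  (D.pairing_exists U x y).choose_spec.1 i

lemma pairing_eq_of (U : X.Opens) (x : Triv M U) (y : Triv N U) (z : Triv P U)
    (hz : ∀ i, z.restrict (inf_le_left : U ⊓ D.W i ≤ U) =
      D.pieceAt i (U ⊓ D.W i) inf_le_right (x.restrict inf_le_left) (y.restrict inf_le_left)) :
    D.pairing U x y = z :=
  ((D.pairing_exists U x y).choose_spec.2 z hz).symm

/-- Cover data give a tensor structure. -/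
noncomputable def tensorStr : TensorStr M N P where
  τ := D.pairing
  τ_restrict {U' U} h x y := by
    apply D.pairing_eq_of
    intro i
    have h1 : ((D.pairing U x y).restrict h).restrict (inf_le_left : U' ⊓ D.W i ≤ U') =
        ((D.pairing U x y).restrict (inf_le_left : U ⊓ D.W i ≤ U)).restrict
          (inf_le_inf_right (D.W i) h) := by
      apply LocalIso.ext; rfl
    rw [h1, pairing_restrict_chart, pieceAt_restrict]
    rfl
  τ_smul_left {U} u x y := by
    apply D.pairing_eq_of
    intro i
    rw [smul_restrict, pairing_restrict_chart, smul_restrict, pieceAt_smul_left]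
  τ_smul_right {U} u x y := by
    apply D.pairing_eq_of
    intro i
    rw [smul_restrict, pairing_restrict_chart, smul_restrict, pieceAt_smul_right]

lemma tensorStr_τ_chart (i : D.ι) : D.tensorStr.τ (D.W i) (D.a i) (D.b i) = D.c i := by
  change D.pairing (D.W i) (D.a i) (D.b i) = D.c i
  apply D.pairing_eq_of
  intro j
  rw [← D.pieceAt_self i, pieceAt_restrict]
  exact D.pieceAt_indep i j _ _ _ _ _

end CoverData

end Fermat.Agent.AV.Pic38
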