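/-
CELL AV (S26/S27), brick PIC-core, part 5: uniqueness and associativity of tensor products of
invertible modules up to isomorphism, from tensor structures.
-/
import Fermat.Agent.AV.Pic38.CoverData
import Fermat.Agent.Jac.ModGlue88.Invertible

set_option autoImplicit false

universe u

open CategoryTheory AlgebraicGeometry TopologicalSpace Opposite

namespace Fermat.Agent.AV.Pic38

open Fermat.Agent.Jac.ModGlue88 LocalIsoU

variable {X : Scheme.{u}}

/-- A family of local isomorphisms `R ≅ R'` indexed by local parameters, compatible with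
restriction, independent of the parameter, with parameters existing locally, glues to a global
isomorphism. -/
theorem exists_iso_of_local_family {R R' : X.Modules}
    (S : X.Opens → Type u) (resS : ∀ {U' U : X.Opens}, U' ≤ U → S U → S U')
    (ψ : ∀ U : X.Opens, S U → LocalIso R R' U)
    (hres : ∀ {U' U : X.Opens} (h : U' ≤ U) (s : S U), ψ U' (resS h s) = (ψ U s).restrict h)
    (hindep : ∀ (U : X.Opens) (s s' : S U), ψ U s = ψ U s')
    (hloc : ∀ x : X, ∃ U : X.Opens, x ∈ U ∧ Nonempty (S U)) : Nonempty (R ≅ R') := by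
  choose U hxU hS using hloc
  have hcover : iSup U = ⊤ := by
    apply top_le_iff.mp
    intro x _
    exact TopologicalSpace.Opens.mem_iSup.mpr ⟨x, hxU x⟩
  obtain ⟨e, -⟩ := LocalIso.exists_iso_of_cover U hcover (fun x => ψ (U x) (hS x).some) (by
    intro x y
    have h1 := hres (inf_le_left : U x ⊓ U y ≤ U x) (hS x).some
    have h2 := hres (inf_le_right : U x ⊓ U y ≤ U y) (hS y).some
    rw [hindep _ _ (resS inf_le_right (hS y).some)] at h1
    have := h1.symm.trans h2
    simpa using congrArg LocalIso.hom this)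
  exact ⟨e⟩

lemma smul_symm_trans_smul {R R' : X.Modules} {U : X.Opens} (u : (Γ(X, U))ˣ)
    (α : Triv R U) (β : Triv R' U) :
    (smul u α).symm.trans (smul u β) = α.symm.trans β := by
  rw [symm_smul, smul_trans, trans_smul, ← mul_smul, inv_mul_cancel, LocalIsoU.one_smul]

/-- Local triviality in terms of trivialisations. -/
lemma exists_triv_of_isInvertible {M : X.Modules} (hM : Scheme.Modules.IsInvertible M) (x : X) :
    ∃ U : X.Opens, x ∈ U ∧ Nonempty (Triv M U) := by
  obtain ⟨W, -, hxW, ⟨α⟩⟩ := (isInvertible_iff_isLocallyTrivial.mp hM) x trivial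
  exact ⟨W, hxW, ⟨α.symm⟩⟩

namespace TensorStr

variable {M N Q P P' : X.Modules}

/-- A tensor product of invertible modules is unique up to isomorphism. -/
theorem nonempty_iso (hM : Scheme.Modules.IsInvertible M) (hN : Scheme.Modules.IsInvertible N)
    (t : TensorStr M N P) (t' : TensorStr M N P') : Nonempty (P ≅ P') := by
  refine exists_iso_of_local_family (fun U => Triv M U × Triv N U)
    (fun h s => (s.1.restrict h, s.2.restrict h))
    (fun U s => (t.τ U s.1 s.2).symm.trans (t'.τ U s.1 s.2)) ?_ ?_ ?_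
  · intro U' U h s
    rw [t.τ_restrict, t'.τ_restrict]
    rfl
  · intro U s s'
    obtain ⟨u, hu⟩ := exists_smul_eq_triv s.1 s'.1
    obtain ⟨v, hv⟩ := exists_smul_eq_triv s.2 s'.2
    rw [hu, hv, t.τ_smul_left, t'.τ_smul_left, t.τ_smul_right, t'.τ_smul_right,
      smul_symm_trans_smul, smul_symm_trans_smul]
  · intro x
    obtain ⟨U₁, hx₁, ⟨a⟩⟩ := exists_triv_of_isInvertible hM x
    obtain ⟨U₂, hx₂, ⟨b⟩⟩ := exists_triv_of_isInvertible hN x
    exact ⟨U₁ ⊓ U₂, ⟨hx₁, hx₂⟩, ⟨(a.restrict inf_le_left, b.restrict inf_le_right)⟩⟩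

/-- A tensor product of invertible modules is invertible. -/
theorem isInvertible (hM : Scheme.Modules.IsInvertible M) (hN : Scheme.Modules.IsInvertible N)
    (t : TensorStr M N P) : Scheme.Modules.IsInvertible P := by
  rw [isInvertible_iff_isLocallyTrivial]
  intro x _
  obtain ⟨U₁, hx₁, ⟨a⟩⟩ := exists_triv_of_isInvertible hM x
  obtain ⟨U₂, hx₂, ⟨b⟩⟩ := exists_triv_of_isInvertible hN x
  exact ⟨U₁ ⊓ U₂, le_top, ⟨hx₁, hx₂⟩,
    ⟨(t.τ _ (a.restrict inf_le_left) (b.restrict inf_le_right)).symm⟩⟩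

/-- Associativity of tensor products of invertible modules, up to isomorphism. -/
theorem nonempty_iso_assoc {P₁ P₂ R₁ R₂ : X.Modules}
    (hM : Scheme.Modules.IsInvertible M) (hN : Scheme.Modules.IsInvertible N)
    (hQ : Scheme.Modules.IsInvertible Q)
    (t₁ : TensorStr M N P₁) (t₂ : TensorStr P₁ Q R₁) (t₃ : TensorStr N Q P₂)
    (t₄ : TensorStr M P₂ R₂) : Nonempty (R₁ ≅ R₂) := by
  refine exists_iso_of_local_family (fun U => Triv M U × Triv N U × Triv Q U)
    (fun h s => (s.1.restrict h, s.2.1.restrict h, s.2.2.restrict h))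
    (fun U s => (t₂.τ U (t₁.τ U s.1 s.2.1) s.2.2).symm.trans (t₄.τ U s.1 (t₃.τ U s.2.1 s.2.2)))
    ?_ ?_ ?_
  · intro U' U h s
    rw [t₁.τ_restrict, t₂.τ_restrict, t₃.τ_restrict, t₄.τ_restrict]
    rfl
  · intro U s s'
    obtain ⟨u, hu⟩ := exists_smul_eq_triv s.1 s'.1
    obtain ⟨v, hv⟩ := exists_smul_eq_triv s.2.1 s'.2.1
    obtain ⟨w, hw⟩ := exists_smul_eq_triv s.2.2 s'.2.2
    rw [hu, hv, hw, t₁.τ_smul_left, t₁.τ_smul_right, t₂.τ_smul_left, t₂.τ_smul_left,
      t₂.τ_smul_right, t₃.τ_smul_left, t₃.τ_smul_right, t₄.τ_smul_left, t₄.τ_smul_right,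
      t₄.τ_smul_right, smul_symm_trans_smul, smul_symm_trans_smul, smul_symm_trans_smul]
  · intro x
    obtain ⟨U₁, hx₁, ⟨a⟩⟩ := exists_triv_of_isInvertible hM x
    obtain ⟨U₂, hx₂, ⟨b⟩⟩ := exists_triv_of_isInvertible hN x
    obtain ⟨U₃, hx₃, ⟨c⟩⟩ := exists_triv_of_isInvertible hQ x
    exact ⟨U₁ ⊓ U₂ ⊓ U₃, ⟨⟨hx₁, hx₂⟩, hx₃⟩,
      ⟨(a.restrict (inf_le_left.trans inf_le_left), b.restrict (inf_le_left.trans inf_le_right),
        c.restrict inf_le_right)⟩⟩

end TensorStr

end Fermat.Agent.AV.Pic38
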