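/-
CELL AV (S26/S27), brick PIC-core, part 6: the invertible module glued from a Čech cocycle of
units, with its trivialisations.
-/
import Fermat.Agent.AV.Pic38.Compare
import Fermat.Agent.Jac.ModGlue88.GlueObj

set_option autoImplicit false

universe u

open CategoryTheory AlgebraicGeometry TopologicalSpace Opposite

namespace Fermat.Agent.AV.Pic38

open Fermat.Agent.Jac.ModGlue88 LocalIsoU

variable {X : Scheme.{u}}

/-- A Čech 1-cocycle of units on an open cover. -/
structure Cocycle (X : Scheme.{u}) where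
  ι : Type u
  W : ι → X.Opens
  cover : iSup W = ⊤
  g : ∀ i j, (Γ(X, W i ⊓ W j))ˣ
  g_self : ∀ i, g i i = 1
  g_coc : ∀ i j k,
    resU X (inf_le_left : W i ⊓ W j ⊓ W k ≤ W i ⊓ W j) (g i j) *
      resU X (le_inf (inf_le_left.trans inf_le_right) inf_le_right :
        W i ⊓ W j ⊓ W k ≤ W j ⊓ W k) (g j k) =
    resU X (le_inf (inf_le_left.trans inf_le_left) inf_le_right :
        W i ⊓ W j ⊓ W k ≤ W i ⊓ W k) (g i k)

lemma scalar_units_comp {M : X.Modules} {U : X.Opens} (u v : (Γ(X, U))ˣ) :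
    (LocalHom.scalar M U (u : Γ(X, U))).comp (LocalHom.scalar M U (v : Γ(X, U))) =
      LocalHom.scalar M U ((u * v : (Γ(X, U))ˣ) : Γ(X, U)) := by
  rw [Units.val_mul, mul_comm, LocalHom.scalar_mul]

/-- The module glued from a cocycle of units, with its trivialisations. -/
theorem Cocycle.exists_glue (G : Cocycle X) :
    ∃ (P : X.Modules) (c : ∀ i, Triv P (G.W i)), ∀ i j,
      (c j).restrict (inf_le_right : G.W i ⊓ G.W j ≤ G.W j) =
        smul (G.g i j) ((c i).restrict (inf_le_left : G.W i ⊓ G.W j ≤ G.W i)) := by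
  obtain ⟨L, β, β', h1, h2, h3⟩ := exists_glue_obj G.W (fun _ => unitMod X)
    (fun i j => LocalHom.scalar (unitMod X) (G.W i ⊓ G.W j) ((G.g i j)⁻¹ : (Γ(X, _))ˣ))
    (fun i => by rw [G.g_self, inv_one, Units.val_one, LocalHom.scalar_one])
    (fun i j k => by
      rw [LocalHom.scalar_restrict, LocalHom.scalar_restrict, LocalHom.scalar_restrict]
      have h' : resU X (inf_le_left : G.W i ⊓ G.W j ⊓ G.W k ≤ G.W i ⊓ G.W j) (G.g i j)⁻¹ *
          resU X (le_inf (inf_le_left.trans inf_le_right) inf_le_right :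
            G.W i ⊓ G.W j ⊓ G.W k ≤ G.W j ⊓ G.W k) (G.g j k)⁻¹ =
          resU X (le_inf (inf_le_left.trans inf_le_left) inf_le_right :
            G.W i ⊓ G.W j ⊓ G.W k ≤ G.W i ⊓ G.W k) (G.g i k)⁻¹ := by
        rw [map_inv, map_inv, map_inv, ← mul_inv, G.g_coc i j k]
      have h'' := congrArg (fun u : (Γ(X, G.W i ⊓ G.W j ⊓ G.W k))ˣ =>
        LocalHom.scalar (unitMod X) (G.W i ⊓ G.W j ⊓ G.W k) (u : Γ(X, G.W i ⊓ G.W j ⊓ G.W k))) h'
      simp only [← scalar_units_comp] at h''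
      exact h'')
  let d : ∀ i, LocalIso L (unitMod X) (G.W i) := fun i => ⟨β i, β' i, h1 i, h2 i⟩
  refine ⟨L, fun i => (d i).symm, fun i j => ?_⟩
  have hd : (d j).restrict (inf_le_right : G.W i ⊓ G.W j ≤ G.W j) =
      smul (G.g i j)⁻¹ ((d i).restrict (inf_le_left : G.W i ⊓ G.W j ≤ G.W i)) := by
    apply LocalIso.ext
    rw [smul_hom']
    exact (h3 i j).symm
  change ((d j).restrict (inf_le_right : G.W i ⊓ G.W j ≤ G.W j)).symm =
    smul (G.g i j) ((d i).restrict (inf_le_left : G.W i ⊓ G.W j ≤ G.W i)).symm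
  rw [hd, symm_smul, inv_inv]

end Fermat.Agent.AV.Pic38
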