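/-
CELL AV (S26/S27), brick PIC-core, part 7: existence of tensor products and tensor inverses of
invertible modules.
-/
import Fermat.Agent.AV.Pic38.Cocycle

set_option autoImplicit false

universe u

open CategoryTheory AlgebraicGeometry TopologicalSpace Opposite

namespace Fermat.Agent.AV.Pic38

open Fermat.Agent.Jac.ModGlue88 LocalIsoU

variable {X : Scheme.{u}}

lemma LocalIso.restrict_restrict' {M N : X.Modules} {U U' U'' : X.Opens} (α : LocalIso M N U)
    (h : U' ≤ U) (h' : U'' ≤ U') : (α.restrict h).restrict h' = α.restrict (h'.trans h) := by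
  apply LocalIso.ext; rfl

lemma LocalIso.refl_restrict {M : X.Modules} {U U' : X.Opens} (h : U' ≤ U) :
    (LocalIso.refl M U).restrict h = LocalIso.refl M U' := by
  apply LocalIso.ext; simp

/-- A common trivialising cover of two invertible modules, indexed by the points of `X`. -/
lemma exists_common_triv {M N : X.Modules} (hM : Scheme.Modules.IsInvertible M)
    (hN : Scheme.Modules.IsInvertible N) :
    ∃ (W : X → X.Opens) (_ : iSup W = ⊤) (_ : ∀ x, Triv M (W x)), Nonempty (∀ x, Triv N (W x)) := by
  choose U₁ hx₁ a using fun x => exists_triv_of_isInvertible hM x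
  choose U₂ hx₂ b using fun x => exists_triv_of_isInvertible hN x
  refine ⟨fun x => U₁ x ⊓ U₂ x, ?_, fun x => (a x).some.restrict inf_le_left,
    ⟨fun x => (b x).some.restrict inf_le_right⟩⟩
  apply top_le_iff.mp
  intro x _
  exact TopologicalSpace.Opens.mem_iSup.mpr ⟨x, hx₁ x, hx₂ x⟩

/-- The cocycle of transition units of a family of trivialisations. -/
lemma tratio_cocycle {M : X.Modules} {ι : Type*} (W : ι → X.Opens) (a : ∀ i, Triv M (W i))
    (i j k : ι) :
    resU X (inf_le_left : W i ⊓ W j ⊓ W k ≤ W i ⊓ W j)
        (tratio ((a i).restrict (inf_le_left : W i ⊓ W j ≤ W i))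
          ((a j).restrict (inf_le_right : W i ⊓ W j ≤ W j))) *
      resU X (le_inf (inf_le_left.trans inf_le_right) inf_le_right :
          W i ⊓ W j ⊓ W k ≤ W j ⊓ W k)
        (tratio ((a j).restrict (inf_le_left : W j ⊓ W k ≤ W j))
          ((a k).restrict (inf_le_right : W j ⊓ W k ≤ W k))) =
    resU X (le_inf (inf_le_left.trans inf_le_left) inf_le_right :
          W i ⊓ W j ⊓ W k ≤ W i ⊓ W k)
        (tratio ((a i).restrict (inf_le_left : W i ⊓ W k ≤ W i))
          ((a k).restrict (inf_le_right : W i ⊓ W k ≤ W k))) := by
  rw [← tratio_restrict, ← tratio_restrict, ← tratio_restrict]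
  simp only [LocalIso.restrict_restrict']
  rw [mul_comm]
  exact tratio_mul_tratio _ _ _

/-- Tensor products of invertible modules exist. -/
theorem exists_tensorStr {M N : X.Modules} (hM : Scheme.Modules.IsInvertible M)
    (hN : Scheme.Modules.IsInvertible N) : ∃ P : X.Modules, Nonempty (TensorStr M N P) := by
  obtain ⟨W, hW, a, ⟨b⟩⟩ := exists_common_triv hM hN
  let G : Cocycle X :=
    { ι := X
      W := W
      cover := hW
      g := fun i j => tratio ((a i).restrict inf_le_left) ((a j).restrict inf_le_right) *
        tratio ((b i).restrict inf_le_left) ((b j).restrict inf_le_right)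
      g_self := fun i => by
        rw [tratio_self, tratio_self, mul_one]
      g_coc := fun i j k => by
        rw [map_mul, map_mul, map_mul, mul_mul_mul_comm, tratio_cocycle W a i j k,
          tratio_cocycle W b i j k] }
  obtain ⟨P, c, hc⟩ := G.exists_glue
  exact ⟨P, ⟨CoverData.tensorStr
    { ι := X, W := W, cover := hW, a := a, b := b, c := c
      coc := fun i j => tratio_eq_of_smul_eq (hc i j).symm }⟩⟩

/-- A module with trivialisations on an open cover is invertible. -/
lemma isInvertible_of_triv_cover {P : X.Modules} {ι : Type*} (W : ι → X.Opens)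
    (hW : iSup W = ⊤) (c : ∀ i, Triv P (W i)) : Scheme.Modules.IsInvertible P :=
  isInvertible_of_cover W hW (fun i => (IsLocallyTrivial.unitMod (W i)).of_localIso (c i).symm)

/-- Every invertible module has a tensor inverse. -/
theorem exists_tensorStr_inv {M : X.Modules} (hM : Scheme.Modules.IsInvertible M) :
    ∃ P : X.Modules, Scheme.Modules.IsInvertible P ∧ Nonempty (TensorStr M P (unitMod X)) := by
  obtain ⟨W, hW, a, -⟩ := exists_common_triv hM hM
  let G : Cocycle X :=
    { ι := X
      W := W
      cover := hW
      g := fun i j => (tratio ((a i).restrict inf_le_left) ((a j).restrict inf_le_right))⁻¹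
      g_self := fun i => by
        rw [tratio_self, inv_one]
      g_coc := fun i j k => by
        rw [map_inv, map_inv, map_inv, ← mul_inv, tratio_cocycle W a i j k] }
  obtain ⟨P, c, hc⟩ := G.exists_glue
  exact ⟨P, isInvertible_of_triv_cover W hW c, ⟨CoverData.tensorStr
    { ι := X, W := W, cover := hW, a := a, b := c, c := fun i => LocalIso.refl _ _
      coc := fun i j => by
        rw [tratio_eq_of_smul_eq (hc i j).symm, LocalIso.refl_restrict, LocalIso.refl_restrict,
          tratio_self]
        exact (mul_inv_cancel _).symm }⟩⟩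

end Fermat.Agent.AV.Pic38
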