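/-
CELL AV (S26/S27), brick PIC-core, part 8: the Picard group `Pic X` of isomorphism classes of
invertible modules, as a commutative group.
-/
import Fermat.Agent.AV.Pic38.Exists

set_option autoImplicit false

universe u

open CategoryTheory AlgebraicGeometry TopologicalSpace Opposite

namespace Fermat.Agent.AV.Pic38

open Fermat.Agent.Jac.ModGlue88 LocalIsoU

variable {X : Scheme.{u}}

/-- Invertible modules on a scheme. -/
structure LineBundle (X : Scheme.{u}) : Type (u + 1) where
  /-- the underlying module -/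
  M : X.Modules
  isInvertible : Scheme.Modules.IsInvertible M

/-- Isomorphism of invertible modules. -/
instance LineBundle.setoid (X : Scheme.{u}) : Setoid (LineBundle X) where
  r L L' := Nonempty (L.M ≅ L'.M)
  iseqv := ⟨fun _ => ⟨Iso.refl _⟩, fun ⟨e⟩ => ⟨e.symm⟩, fun ⟨e⟩ ⟨e'⟩ => ⟨e ≪≫ e'⟩⟩

/-- The Picard group of a scheme: isomorphism classes of invertible modules. -/
def Pic (X : Scheme.{u}) : Type (u + 1) := Quotient (LineBundle.setoid X)

namespace LineBundle

/-- The trivial line bundle. -/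
noncomputable def unit (X : Scheme.{u}) : LineBundle X :=
  ⟨unitMod X, Scheme.Modules.isInvertible_unit X⟩

/-- A chosen tensor product of two line bundles. -/
noncomputable def tensor (L L' : LineBundle X) : LineBundle X :=
  ⟨(exists_tensorStr L.isInvertible L'.isInvertible).choose,
    (exists_tensorStr L.isInvertible L'.isInvertible).choose_spec.some.isInvertible
      L.isInvertible L'.isInvertible⟩

/-- The tensor structure of the chosen tensor product. -/
noncomputable def tensorStr (L L' : LineBundle X) : TensorStr L.M L'.M (L.tensor L').M :=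
  (exists_tensorStr L.isInvertible L'.isInvertible).choose_spec.some

/-- A chosen tensor inverse of a line bundle. -/
noncomputable def inv (L : LineBundle X) : LineBundle X :=
  ⟨(exists_tensorStr_inv L.isInvertible).choose,
    (exists_tensorStr_inv L.isInvertible).choose_spec.1⟩

/-- The tensor structure `L ⊗ L⁻¹ = 𝒪`. -/
noncomputable def invStr (L : LineBundle X) : TensorStr L.M L.inv.M (unitMod X) :=
  (exists_tensorStr_inv L.isInvertible).choose_spec.2.some

lemma tensor_congr {L₁ L₁' L₂ L₂' : LineBundle X} (h₁ : L₁ ≈ L₁') (h₂ : L₂ ≈ L₂') :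
    L₁.tensor L₂ ≈ L₁'.tensor L₂' := by
  obtain ⟨e₁⟩ := h₁
  obtain ⟨e₂⟩ := h₂
  exact TensorStr.nonempty_iso L₁'.isInvertible L₂'.isInvertible
    ((L₁.tensorStr L₂).ofIso e₁ e₂ (Iso.refl _)) (L₁'.tensorStr L₂')

end LineBundle

namespace Pic

/-- The class of an invertible module. -/
def mk (M : X.Modules) (hM : Scheme.Modules.IsInvertible M) : Pic X :=
  Quotient.mk _ ⟨M, hM⟩

lemma mk_eq_mk_iff {M N : X.Modules} (hM : Scheme.Modules.IsInvertible M)
    (hN : Scheme.Modules.IsInvertible N) : mk M hM = mk N hN ↔ Nonempty (M ≅ N) :=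
  Quotient.eq (r := LineBundle.setoid X)

lemma mk_eq_mk_of_iso {M N : X.Modules} (hM : Scheme.Modules.IsInvertible M) (e : M ≅ N) :
    mk M hM = mk N (isInvertible_of_iso e hM) :=
  (mk_eq_mk_iff _ _).mpr ⟨e⟩

@[elab_as_elim]
lemma ind {p : Pic X → Prop} (h : ∀ M hM, p (mk M hM)) (x : Pic X) : p x :=
  Quotient.inductionOn x (fun L => h L.M L.isInvertible)

noncomputable instance : Mul (Pic X) :=
  ⟨Quotient.map₂ LineBundle.tensor (fun _ _ h₁ _ _ h₂ => LineBundle.tensor_congr h₁ h₂)⟩

noncomputable instance : One (Pic X) := ⟨mk (unitMod X) (Scheme.Modules.isInvertible_unit X)⟩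

noncomputable instance : Inv (Pic X) :=
  ⟨Quotient.map LineBundle.inv (fun L L' h => by
    obtain ⟨e⟩ := h
    -- both `L⁻¹` and `L'⁻¹` are tensor inverses of `L`
    have t₁ := L.invStr
    have t₂ : TensorStr L.M L'.inv.M (unitMod X) := L'.invStr.ofIso e.symm (Iso.refl _) (Iso.refl _)
    -- `L⁻¹ ≅ L⁻¹ ⊗ (L ⊗ L'⁻¹) ≅ (L⁻¹ ⊗ L) ⊗ L'⁻¹ ≅ L'⁻¹`
    exact TensorStr.nonempty_iso_assoc L.inv.isInvertible L.isInvertible L'.inv.isInvertible
      t₁.swap (TensorStr.unitLeft _) t₂ (TensorStr.unitLeft _).swap |>.map Iso.symm)⟩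

/-- The product of two classes is the class of any tensor product. -/
lemma mk_mul_mk {M N P : X.Modules} (hM : Scheme.Modules.IsInvertible M)
    (hN : Scheme.Modules.IsInvertible N) (t : TensorStr M N P) :
    mk M hM * mk N hN = mk P (t.isInvertible hM hN) :=
  Quotient.sound (TensorStr.nonempty_iso hM hN (LineBundle.tensorStr ⟨M, hM⟩ ⟨N, hN⟩) t)

lemma one_def : (1 : Pic X) = mk (unitMod X) (Scheme.Modules.isInvertible_unit X) := rfl

lemma mk_mul_mk_inv {M : X.Modules} (hM : Scheme.Modules.IsInvertible M) :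
    mk M hM * (mk M hM)⁻¹ = 1 := by
  change mk M hM * mk (LineBundle.inv ⟨M, hM⟩).M (LineBundle.inv ⟨M, hM⟩).isInvertible = 1
  rw [mk_mul_mk hM _ (LineBundle.invStr ⟨M, hM⟩)]
  rfl

noncomputable instance : CommGroup (Pic X) where
  mul_assoc a b c := by
    induction a using ind with | _ M hM => ?_
    induction b using ind with | _ N hN => ?_
    induction c using ind with | _ Q hQ => ?_
    let LM : LineBundle X := ⟨M, hM⟩
    let LN : LineBundle X := ⟨N, hN⟩
    let LQ : LineBundle X := ⟨Q, hQ⟩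
    rw [mk_mul_mk hM hN (LM.tensorStr LN), mk_mul_mk hN hQ (LN.tensorStr LQ),
      mk_mul_mk _ hQ ((LM.tensor LN).tensorStr LQ), mk_mul_mk hM _ (LM.tensorStr (LN.tensor LQ)),
      mk_eq_mk_iff]
    exact TensorStr.nonempty_iso_assoc hM hN hQ (LM.tensorStr LN) ((LM.tensor LN).tensorStr LQ)
      (LN.tensorStr LQ) (LM.tensorStr (LN.tensor LQ))
  one_mul a := by
    induction a using ind with | _ M hM => ?_
    rw [one_def, mk_mul_mk _ hM (TensorStr.unitLeft M)]
  mul_one a := by
    induction a using ind with | _ M hM => ?_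
    rw [one_def, mk_mul_mk hM _ (TensorStr.unitLeft M).swap]
  inv_mul_cancel a := by
    induction a using ind with | _ M hM => ?_
    change mk (LineBundle.inv ⟨M, hM⟩).M (LineBundle.inv ⟨M, hM⟩).isInvertible * mk M hM = 1
    rw [mk_mul_mk _ hM (LineBundle.invStr ⟨M, hM⟩).swap]
    rfl
  mul_comm a b := by
    induction a using ind with | _ M hM => ?_
    induction b using ind with | _ N hN => ?_
    let LM : LineBundle X := ⟨M, hM⟩
    let LN : LineBundle X := ⟨N, hN⟩
    rw [mk_mul_mk hM hN (LM.tensorStr LN), mk_mul_mk hN hM (LM.tensorStr LN).swap]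

lemma mk_eq_one_iff {M : X.Modules} (hM : Scheme.Modules.IsInvertible M) :
    mk M hM = 1 ↔ Nonempty (M ≅ unitMod X) := mk_eq_mk_iff _ _

end Pic

end Fermat.Agent.AV.Pic38
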