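/-
CELL AV (S26/S27), brick PIC-core, part 9: pullback of trivialisations and tensor structures along
arbitrary morphisms of schemes; `Pic.map f : Pic X →* Pic Y` and its functoriality.
-/
import Fermat.Agent.AV.Pic38.Group
import Fermat.Agent.Jac.ModGlue88.LocalAdj

set_option autoImplicit false

universe u

open CategoryTheory AlgebraicGeometry TopologicalSpace Opposite

namespace Fermat.Agent.AV.Pic38

open Fermat.Agent.Jac.ModGlue88 LocalIsoU

variable {X Y : Scheme.{u}} (f : Y ⟶ X)

/-- Pullback of units of functions. -/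
noncomputable def appU (U : X.Opens) : (Γ(X, U))ˣ →* (Γ(Y, f ⁻¹ᵁ U))ˣ :=
  Units.map ((f.app U).hom : Γ(X, U) →* Γ(Y, f ⁻¹ᵁ U))

@[simp] lemma appU_val (U : X.Opens) (u : (Γ(X, U))ˣ) :
    ((appU f U u : (Γ(Y, f ⁻¹ᵁ U))ˣ) : Γ(Y, f ⁻¹ᵁ U)) = f.app U u := rfl

lemma appU_resU {U' U : X.Opens} (h : U' ≤ U) (u : (Γ(X, U))ˣ) :
    appU f U' (resU X h u) = resU Y (f.preimage_mono h) (appU f U u) := by
  ext
  simp only [appU_val, resU_val]
  exact app_resO f h (u : Γ(X, U))

variable {M N P : X.Modules} {U U' : X.Opens}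

/-- Pullback of a trivialisation along an arbitrary morphism of schemes. -/
noncomputable def pullTriv (a : Triv M U) : Triv ((Scheme.Modules.pullback f).obj M) (f ⁻¹ᵁ U) :=
  (LocalIso.ofIso (Scheme.Modules.pullbackUnitIso f).symm (f ⁻¹ᵁ U)).trans (a.pullbackAlong f)

lemma pullTriv_restrict (a : Triv M U) (h : U' ≤ U) :
    (pullTriv f a).restrict (f.preimage_mono h) = pullTriv f (a.restrict h) := by
  apply LocalIso.ext
  simp only [pullTriv, LocalIso.restrict_hom, LocalIso.trans_hom, LocalHom.restrict_comp,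
    LocalIso.pullbackAlong_hom, LocalHom.pullbackAlong_restrict]
  rfl

lemma pullTriv_smul (u : (Γ(X, U))ˣ) (a : Triv M U) :
    pullTriv f (smul u a) = smul (appU f U u) (pullTriv f a) := by
  apply LocalIso.ext
  simp only [pullTriv, smul_hom, LocalIso.trans_hom, LocalIso.pullbackAlong_hom,
    LocalHom.pullbackAlong_comp, LocalHom.pullbackAlong_scalar, appU_val]
  rw [← LocalHom.comp_assoc, ← LocalHom.scalar_comp, LocalHom.comp_assoc]

lemma tratio_pullTriv (a a' : Triv M U) :
    tratio (pullTriv f a) (pullTriv f a') = appU f U (tratio a a') := by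
  apply tratio_eq_of_smul_eq
  rw [← pullTriv_smul, tratio_smul]

end Fermat.Agent.AV.Pic38

namespace Fermat.Agent.AV.Pic38

open Fermat.Agent.Jac.ModGlue88 LocalIsoU

variable {X Y Z : Scheme.{u}}

lemma TensorStr.tratio_τ {M N P : X.Modules} (t : TensorStr M N P) {U : X.Opens}
    (a a' : Triv M U) (b b' : Triv N U) :
    tratio (t.τ U a b) (t.τ U a' b') = tratio a a' * tratio b b' := by
  apply tratio_eq_of_smul_eq
  rw [mul_smul, ← t.τ_smul_right, ← t.τ_smul_left, tratio_smul, tratio_smul]

/-- Tensor structures pull back along arbitrary morphisms of schemes. -/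
theorem TensorStr.nonempty_pullback (f : Y ⟶ X) {M N P : X.Modules}
    (hM : Scheme.Modules.IsInvertible M) (hN : Scheme.Modules.IsInvertible N)
    (t : TensorStr M N P) :
    Nonempty (TensorStr ((Scheme.Modules.pullback f).obj M) ((Scheme.Modules.pullback f).obj N)
      ((Scheme.Modules.pullback f).obj P)) := by
  obtain ⟨W, hW, a, ⟨b⟩⟩ := exists_common_triv hM hN
  have hcov : (⨆ i, f ⁻¹ᵁ W i) = ⊤ := by
    apply top_le_iff.mp
    intro y _
    have : f y ∈ iSup W := by rw [hW]; trivial
    obtain ⟨i, hi⟩ := TopologicalSpace.Opens.mem_iSup.mp this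
    exact TopologicalSpace.Opens.mem_iSup.mpr ⟨i, hi⟩
  refine ⟨CoverData.tensorStr
    { ι := X
      W := fun i => f ⁻¹ᵁ W i
      cover := hcov
      a := fun i => pullTriv f (a i)
      b := fun i => pullTriv f (b i)
      c := fun i => pullTriv f (t.τ (W i) (a i) (b i))
      coc := fun i j => ?_ }⟩
  change tratio ((pullTriv f (t.τ (W i) (a i) (b i))).restrict
      (f.preimage_mono (inf_le_left : W i ⊓ W j ≤ W i)))
      ((pullTriv f (t.τ (W j) (a j) (b j))).restrict
        (f.preimage_mono (inf_le_right : W i ⊓ W j ≤ W j))) =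
    tratio ((pullTriv f (a i)).restrict (f.preimage_mono (inf_le_left : W i ⊓ W j ≤ W i)))
      ((pullTriv f (a j)).restrict (f.preimage_mono (inf_le_right : W i ⊓ W j ≤ W j))) *
    tratio ((pullTriv f (b i)).restrict (f.preimage_mono (inf_le_left : W i ⊓ W j ≤ W i)))
      ((pullTriv f (b j)).restrict (f.preimage_mono (inf_le_right : W i ⊓ W j ≤ W j)))
  rw [pullTriv_restrict, pullTriv_restrict, pullTriv_restrict, pullTriv_restrict,
    pullTriv_restrict, pullTriv_restrict, tratio_pullTriv, tratio_pullTriv, tratio_pullTriv,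
    ← map_mul, ← t.τ_restrict (inf_le_left : W i ⊓ W j ≤ W i),
    ← t.τ_restrict (inf_le_right : W i ⊓ W j ≤ W j), t.tratio_τ]
  · exact inf_le_right
  · exact inf_le_left

namespace LineBundle

/-- Pullback of line bundles. -/
noncomputable def pullback (f : Y ⟶ X) (L : LineBundle X) : LineBundle Y :=
  ⟨(Scheme.Modules.pullback f).obj L.M, L.isInvertible.pullback f⟩

end LineBundle

namespace Pic

/-- Pullback of classes of invertible modules, as a function. -/
noncomputable def mapFun (f : Y ⟶ X) : Pic X → Pic Y :=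
  Quotient.map (LineBundle.pullback f)
    (fun _ _ h => h.map (fun e => (Scheme.Modules.pullback f).mapIso e))

lemma mapFun_mk (f : Y ⟶ X) {M : X.Modules} (hM : Scheme.Modules.IsInvertible M) :
    mapFun f (mk M hM) = mk ((Scheme.Modules.pullback f).obj M) (hM.pullback f) := rfl

/-- Pullback of invertible modules, as a homomorphism of Picard groups. -/
noncomputable def map (f : Y ⟶ X) : Pic X →* Pic Y where
  toFun := mapFun f
  map_one' := by
    rw [one_def, mapFun_mk, one_def, mk_eq_mk_iff]
    exact ⟨Scheme.Modules.pullbackUnitIso f⟩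
  map_mul' a b := by
    induction a using ind with | _ M hM => ?_
    induction b using ind with | _ N hN => ?_
    let LM : LineBundle X := ⟨M, hM⟩
    let LN : LineBundle X := ⟨N, hN⟩
    rw [mk_mul_mk hM hN (LM.tensorStr LN), mapFun_mk, mapFun_mk, mapFun_mk,
      mk_mul_mk _ _ (TensorStr.nonempty_pullback f hM hN (LM.tensorStr LN)).some]

@[simp] lemma map_mk (f : Y ⟶ X) {M : X.Modules} (hM : Scheme.Modules.IsInvertible M) :
    map f (mk M hM) = mk ((Scheme.Modules.pullback f).obj M) (hM.pullback f) := rfl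

lemma map_id : map (𝟙 X) = MonoidHom.id (Pic X) := by
  ext a
  induction a using ind with | _ M hM => ?_
  rw [map_mk, MonoidHom.id_apply, mk_eq_mk_iff]
  exact ⟨(Scheme.Modules.pullbackId X).app M⟩

lemma map_comp (f : Z ⟶ Y) (g : Y ⟶ X) : map (f ≫ g) = (map f).comp (map g) := by
  ext a
  induction a using ind with | _ M hM => ?_
  rw [map_mk, MonoidHom.comp_apply, map_mk, map_mk, mk_eq_mk_iff]
  exact ⟨((Scheme.Modules.pullbackComp f g).app M).symm⟩

lemma map_comp_apply (f : Z ⟶ Y) (g : Y ⟶ X) (a : Pic X) : map (f ≫ g) a = map f (map g a) := by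
  rw [map_comp]; rfl

lemma map_congr {f g : Y ⟶ X} (h : f = g) : map f = map g := by rw [h]

end Pic

end Fermat.Agent.AV.Pic38
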