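/-
CELL AV (S26/S27), brick PIC-core, part 10: Čech description of the Picard group.
`Cover X`, the group `Z1 𝒲` of 1-cocycles of units, `toPic 𝒲 : Z1 𝒲 →* Pic X` with kernel the
coboundaries, surjectivity over all covers, invariance under refinement, compatibility with
`Pic.map`.
-/
import Fermat.Agent.AV.Pic38.Map

set_option autoImplicit false

universe u

open CategoryTheory AlgebraicGeometry TopologicalSpace Opposite

namespace Fermat.Agent.AV.Pic38

open Fermat.Agent.Jac.ModGlue88 LocalIsoU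

variable {X Y : Scheme.{u}}

/-- An open cover of a scheme, indexed in the universe of the scheme. -/
structure Cover (X : Scheme.{u}) where
  ι : Type u
  W : ι → X.Opens
  cover : iSup W = ⊤

namespace Cover

/-- The cover by the points of a family of open neighbourhoods. -/
def ofNhds (W : X → X.Opens) (hW : ∀ x, x ∈ W x) : Cover X where
  ι := X
  W := W
  cover := by
    apply top_le_iff.mp
    intro x _
    exact TopologicalSpace.Opens.mem_iSup.mpr ⟨x, hW x⟩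

/-- Pullback of an open cover. -/
def pullback (f : Y ⟶ X) (𝒲 : Cover X) : Cover Y where
  ι := 𝒲.ι
  W := fun i => f ⁻¹ᵁ 𝒲.W i
  cover := by
    apply top_le_iff.mp
    intro y _
    have : f y ∈ iSup 𝒲.W := by rw [𝒲.cover]; trivial
    obtain ⟨i, hi⟩ := TopologicalSpace.Opens.mem_iSup.mp this
    exact TopologicalSpace.Opens.mem_iSup.mpr ⟨i, hi⟩

end Cover

variable (𝒲 : Cover X)

/-- Čech 1-cochains of units on an open cover. -/
abbrev C1 : Type u := ∀ i j : 𝒲.ι, (Γ(X, 𝒲.W i ⊓ 𝒲.W j))ˣ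

/-- The cocycle condition. -/
def IsCocycle (g : C1 𝒲) : Prop :=
  (∀ i, g i i = 1) ∧ ∀ i j k,
    resU X (inf_le_left : 𝒲.W i ⊓ 𝒲.W j ⊓ 𝒲.W k ≤ 𝒲.W i ⊓ 𝒲.W j) (g i j) *
      resU X (le_inf (inf_le_left.trans inf_le_right) inf_le_right :
        𝒲.W i ⊓ 𝒲.W j ⊓ 𝒲.W k ≤ 𝒲.W j ⊓ 𝒲.W k) (g j k) =
    resU X (le_inf (inf_le_left.trans inf_le_left) inf_le_right :
        𝒲.W i ⊓ 𝒲.W j ⊓ 𝒲.W k ≤ 𝒲.W i ⊓ 𝒲.W k) (g i k)

/-- Čech 1-cocycles of units on an open cover, as a group. -/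
def Z1 : Subgroup (C1 𝒲) where
  carrier := {g | IsCocycle 𝒲 g}
  one_mem' := ⟨fun _ => rfl, fun _ _ _ => by simp⟩
  mul_mem' {g g'} hg hg' := ⟨fun i => by simp [hg.1 i, hg'.1 i], fun i j k => by
    simp only [Pi.mul_apply, map_mul]
    rw [mul_mul_mul_comm, hg.2 i j k, hg'.2 i j k]⟩
  inv_mem' {g} hg := ⟨fun i => by simp [hg.1 i], fun i j k => by
    simp only [Pi.inv_apply, map_inv]
    rw [← mul_inv, hg.2 i j k]⟩

variable {𝒲}

/-- The bundled cocycle of an element of `Z1`. -/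
def toCocycle (g : Z1 𝒲) : Cocycle X where
  ι := 𝒲.ι
  W := 𝒲.W
  cover := 𝒲.cover
  g := g.1
  g_self := g.2.1
  g_coc := g.2.2

/-- Trivialisations of `P` on the cover `𝒲` with transition cocycle `g`. -/
def HasCocycle (P : X.Modules) (c : ∀ i, Triv P (𝒲.W i)) (g : C1 𝒲) : Prop :=
  ∀ i j, (c j).restrict (inf_le_right : 𝒲.W i ⊓ 𝒲.W j ≤ 𝒲.W j) =
    smul (g i j) ((c i).restrict (inf_le_left : 𝒲.W i ⊓ 𝒲.W j ≤ 𝒲.W i))

lemma HasCocycle.tratio_eq {P : X.Modules} {c : ∀ i, Triv P (𝒲.W i)} {g : C1 𝒲}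
    (h : HasCocycle P c g) (i j : 𝒲.ι) :
    tratio ((c i).restrict (inf_le_left : 𝒲.W i ⊓ 𝒲.W j ≤ 𝒲.W i))
      ((c j).restrict (inf_le_right : 𝒲.W i ⊓ 𝒲.W j ≤ 𝒲.W j)) = g i j :=
  tratio_eq_of_smul_eq (h i j).symm

/-- The transition cocycle of a family of trivialisations. -/
noncomputable def cocycleOfTriv {P : X.Modules} (c : ∀ i, Triv P (𝒲.W i)) : C1 𝒲 :=
  fun i j => tratio ((c i).restrict inf_le_left) ((c j).restrict inf_le_right)

lemma hasCocycle_cocycleOfTriv {P : X.Modules} (c : ∀ i, Triv P (𝒲.W i)) :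
    HasCocycle P c (cocycleOfTriv c) := fun _ _ => (tratio_smul _ _).symm

lemma isCocycle_cocycleOfTriv {P : X.Modules} (c : ∀ i, Triv P (𝒲.W i)) :
    IsCocycle 𝒲 (cocycleOfTriv c) :=
  ⟨fun _ => tratio_self _, fun i j k => tratio_cocycle 𝒲.W c i j k⟩

lemma HasCocycle.isCocycle {P : X.Modules} {c : ∀ i, Triv P (𝒲.W i)} {g : C1 𝒲}
    (h : HasCocycle P c g) : IsCocycle 𝒲 g := by
  have : g = cocycleOfTriv c := by
    funext i j
    exact (h.tratio_eq i j).symm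
  rw [this]
  exact isCocycle_cocycleOfTriv c

/-- Two modules with trivialisations on the same cover and the same transition cocycle are
isomorphic. -/
theorem HasCocycle.nonempty_iso {P P' : X.Modules} {c : ∀ i, Triv P (𝒲.W i)}
    {c' : ∀ i, Triv P' (𝒲.W i)} {g : C1 𝒲} (h : HasCocycle P c g) (h' : HasCocycle P' c' g) :
    Nonempty (P ≅ P') := by
  obtain ⟨e, -⟩ := LocalIso.exists_iso_of_cover 𝒲.W 𝒲.cover (fun i => (c i).symm.trans (c' i)) (by
    intro i j
    have : ((c j).restrict (inf_le_right : 𝒲.W i ⊓ 𝒲.W j ≤ 𝒲.W j)).symm.trans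
        ((c' j).restrict (inf_le_right : 𝒲.W i ⊓ 𝒲.W j ≤ 𝒲.W j)) =
        ((c i).restrict (inf_le_left : 𝒲.W i ⊓ 𝒲.W j ≤ 𝒲.W i)).symm.trans
        ((c' i).restrict (inf_le_left : 𝒲.W i ⊓ 𝒲.W j ≤ 𝒲.W i)) := by
      rw [h i j, h' i j, smul_symm_trans_smul]
    exact (congrArg LocalIso.hom this).symm)
  exact ⟨e⟩

lemma HasCocycle.isInvertible {P : X.Modules} {c : ∀ i, Triv P (𝒲.W i)} {g : C1 𝒲}
    (_ : HasCocycle P c g) : Scheme.Modules.IsInvertible P :=
  isInvertible_of_triv_cover 𝒲.W 𝒲.cover c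

/-- Every cocycle is the transition cocycle of a module. -/
lemma exists_hasCocycle (g : Z1 𝒲) :
    ∃ (P : X.Modules) (c : ∀ i, Triv P (𝒲.W i)), HasCocycle P c g.1 :=
  (toCocycle g).exists_glue

/-- The class in `Pic X` of a Čech cocycle. -/
noncomputable def toPicFun (g : Z1 𝒲) : Pic X :=
  Pic.mk (exists_hasCocycle g).choose (exists_hasCocycle g).choose_spec.choose_spec.isInvertible

/-- The class of a cocycle is the class of any module with this transition cocycle. -/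
theorem toPicFun_eq_mk (g : Z1 𝒲) {P : X.Modules} {c : ∀ i, Triv P (𝒲.W i)}
    (h : HasCocycle P c g.1) : toPicFun g = Pic.mk P h.isInvertible :=
  (Pic.mk_eq_mk_iff _ _).mpr ((exists_hasCocycle g).choose_spec.choose_spec.nonempty_iso h)

/-- **Čech cocycles to the Picard group**, a group homomorphism. -/
noncomputable def toPic (𝒲 : Cover X) : Z1 𝒲 →* Pic X where
  toFun g := toPicFun g
  map_one' := by
    have h : HasCocycle (unitMod X) (fun i => LocalIso.refl _ (𝒲.W i)) (1 : Z1 𝒲).1 := by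
      intro i j
      rw [LocalIso.refl_restrict, LocalIso.refl_restrict]
      exact (LocalIsoU.one_smul _).symm
    rw [toPicFun_eq_mk 1 h]
    rfl
  map_mul' g g' := by
    obtain ⟨P, c, h⟩ := exists_hasCocycle g
    obtain ⟨P', c', h'⟩ := exists_hasCocycle g'
    obtain ⟨P'', c'', h''⟩ := exists_hasCocycle (g * g')
    rw [toPicFun_eq_mk g h, toPicFun_eq_mk g' h', toPicFun_eq_mk (g * g') h'']
    let D : CoverData P P' P'' :=
      { ι := 𝒲.ι, W := 𝒲.W, cover := 𝒲.cover, a := c, b := c', c := c''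
        coc := fun i j => by
          rw [h.tratio_eq, h'.tratio_eq, h''.tratio_eq]
          rfl }
    rw [Pic.mk_mul_mk h.isInvertible h'.isInvertible D.tensorStr]

lemma toPic_eq_mk (g : Z1 𝒲) {P : X.Modules} {c : ∀ i, Triv P (𝒲.W i)}
    (h : HasCocycle P c g.1) : toPic 𝒲 g = Pic.mk P h.isInvertible :=
  toPicFun_eq_mk g h

/-- The class of an invertible module with trivialisations on `𝒲` is the class of its transition
cocycle. -/
lemma toPic_cocycleOfTriv {P : X.Modules} (c : ∀ i, Triv P (𝒲.W i)) :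
    toPic 𝒲 ⟨cocycleOfTriv c, isCocycle_cocycleOfTriv c⟩ =
      Pic.mk P (isInvertible_of_triv_cover 𝒲.W 𝒲.cover c) :=
  toPic_eq_mk _ (hasCocycle_cocycleOfTriv c)

/-- Every class in `Pic X` comes from a Čech cocycle on some open cover. -/
theorem exists_toPic_eq (a : Pic X) : ∃ (𝒲 : Cover X) (g : Z1 𝒲), toPic 𝒲 g = a := by
  induction a using Pic.ind with | _ M hM => ?_
  obtain ⟨W, hW, c, -⟩ := exists_common_triv hM hM
  exact ⟨⟨X, W, hW⟩, ⟨cocycleOfTriv (𝒲 := ⟨X, W, hW⟩) c, isCocycle_cocycleOfTriv _⟩,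
    toPic_cocycleOfTriv (𝒲 := ⟨X, W, hW⟩) c⟩

/-- The kernel of `toPic` consists of the coboundaries. -/
theorem toPic_eq_one_iff (g : Z1 𝒲) :
    toPic 𝒲 g = 1 ↔ ∃ h : ∀ i, (Γ(X, 𝒲.W i))ˣ, ∀ i j,
      g.1 i j = resU X (inf_le_right : 𝒲.W i ⊓ 𝒲.W j ≤ 𝒲.W j) (h j) *
        (resU X (inf_le_left : 𝒲.W i ⊓ 𝒲.W j ≤ 𝒲.W i) (h i))⁻¹ := by
  constructor
  · intro hg
    obtain ⟨P, c, hc⟩ := exists_hasCocycle g
    rw [toPic_eq_mk g hc, Pic.mk_eq_one_iff] at hg
    obtain ⟨e⟩ := hg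
    refine ⟨fun i => tratio (LocalIso.refl _ _) ((c i).trans (LocalIso.ofIso e _)), fun i j => ?_⟩
    have hi := tratio_smul (LocalIso.refl (unitMod X) (𝒲.W i)) ((c i).trans (LocalIso.ofIso e _))
    have hj := tratio_smul (LocalIso.refl (unitMod X) (𝒲.W j)) ((c j).trans (LocalIso.ofIso e _))
    set hi' := tratio (LocalIso.refl (unitMod X) (𝒲.W i)) ((c i).trans (LocalIso.ofIso e _))
    set hj' := tratio (LocalIso.refl (unitMod X) (𝒲.W j)) ((c j).trans (LocalIso.ofIso e _))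
    have key : smul (resU X (inf_le_right : 𝒲.W i ⊓ 𝒲.W j ≤ 𝒲.W j) hj')
        (LocalIso.refl (unitMod X) (𝒲.W i ⊓ 𝒲.W j)) =
        smul (g.1 i j * resU X (inf_le_left : 𝒲.W i ⊓ 𝒲.W j ≤ 𝒲.W i) hi')
          (LocalIso.refl (unitMod X) (𝒲.W i ⊓ 𝒲.W j)) := by
      have e1 := congrArg (fun α => LocalIso.restrict α
        (inf_le_right : 𝒲.W i ⊓ 𝒲.W j ≤ 𝒲.W j)) hj
      have e2 := congrArg (fun α => LocalIso.restrict α
        (inf_le_left : 𝒲.W i ⊓ 𝒲.W j ≤ 𝒲.W i)) hi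
      simp only [smul_restrict, LocalIso.refl_restrict] at e1 e2
      rw [e1, LocalIsoU.mul_smul, e2]
      have e3 : ((c j).trans (LocalIso.ofIso e (𝒲.W j))).restrict
          (inf_le_right : 𝒲.W i ⊓ 𝒲.W j ≤ 𝒲.W j) =
          ((c j).restrict inf_le_right).trans (LocalIso.ofIso e _) := by
        apply LocalIso.ext; rfl
      have e4 : ((c i).trans (LocalIso.ofIso e (𝒲.W i))).restrict
          (inf_le_left : 𝒲.W i ⊓ 𝒲.W j ≤ 𝒲.W i) =
          ((c i).restrict inf_le_left).trans (LocalIso.ofIso e _) := by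
        apply LocalIso.ext; rfl
      rw [e3, e4, hc i j, smul_trans]
    have := smul_left_cancel (IsLocallyTrivial.unitMod _) key
    rw [this, mul_assoc, mul_inv_cancel, mul_one]
  · rintro ⟨h, hh⟩
    have hc : HasCocycle (unitMod X) (fun i => smul (h i) (LocalIso.refl _ (𝒲.W i))) g.1 := by
      intro i j
      rw [smul_restrict, smul_restrict, LocalIso.refl_restrict, LocalIso.refl_restrict,
        ← LocalIsoU.mul_smul, hh i j, mul_assoc, inv_mul_cancel, mul_one]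
    rw [toPic_eq_mk g hc]
    rfl

end Fermat.Agent.AV.Pic38

namespace Fermat.Agent.AV.Pic38

open Fermat.Agent.Jac.ModGlue88 LocalIsoU

variable {X Y : Scheme.{u}}

section Refine

variable {𝒲 𝒲' : Cover X} (ρ : 𝒲'.ι → 𝒲.ι) (hρ : ∀ i, 𝒲'.W i ≤ 𝒲.W (ρ i))

/-- Restriction of cochains along a refinement of covers. -/
noncomputable def refineC1 (g : C1 𝒲) : C1 𝒲' := fun i j =>
  resU X (le_inf (inf_le_left.trans (hρ i)) (inf_le_right.trans (hρ j))) (g (ρ i) (ρ j))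

lemma HasCocycle.refine {P : X.Modules} {c : ∀ i, Triv P (𝒲.W i)} {g : C1 𝒲}
    (h : HasCocycle P c g) :
    HasCocycle P (fun i => (c (ρ i)).restrict (hρ i)) (refineC1 ρ hρ g) := by
  intro i j
  have := congrArg (fun α => LocalIso.restrict α
    (le_inf (inf_le_left.trans (hρ i)) (inf_le_right.trans (hρ j)) :
      𝒲'.W i ⊓ 𝒲'.W j ≤ 𝒲.W (ρ i) ⊓ 𝒲.W (ρ j))) (h (ρ i) (ρ j))
  simp only [smul_restrict, LocalIso.restrict_restrict'] at this ⊢
  exact this

/-- Refinement of cocycles. -/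
noncomputable def refine : Z1 𝒲 →* Z1 𝒲' where
  toFun g := ⟨refineC1 ρ hρ g.1, by
    obtain ⟨P, c, h⟩ := exists_hasCocycle g
    exact (h.refine ρ hρ).isCocycle⟩
  map_one' := by
    apply Subtype.ext
    funext i j
    simp [refineC1]
  map_mul' g g' := by
    apply Subtype.ext
    funext i j
    simp [refineC1]

/-- The class of a cocycle does not change under refinement of the cover. -/
theorem toPic_refine (g : Z1 𝒲) : toPic 𝒲' (refine ρ hρ g) = toPic 𝒲 g := by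
  obtain ⟨P, c, h⟩ := exists_hasCocycle g
  rw [toPic_eq_mk g h, toPic_eq_mk (refine ρ hρ g) (h.refine ρ hρ)]

end Refine

section Pullback

variable (f : Y ⟶ X) {𝒲 : Cover X}

/-- Pullback of cochains along a morphism of schemes. -/
noncomputable def pullbackC1 (g : C1 𝒲) : C1 (𝒲.pullback f) := fun i j =>
  appU f (𝒲.W i ⊓ 𝒲.W j) (g i j)

lemma HasCocycle.pullback {P : X.Modules} {c : ∀ i, Triv P (𝒲.W i)} {g : C1 𝒲}
    (h : HasCocycle P c g) :
    HasCocycle (𝒲 := 𝒲.pullback f) ((Scheme.Modules.pullback f).obj P)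
      (fun i => pullTriv f (c i)) (pullbackC1 f g) := by
  intro i j
  change (pullTriv f (c j)).restrict (f.preimage_mono (inf_le_right : 𝒲.W i ⊓ 𝒲.W j ≤ 𝒲.W j)) =
    smul (appU f (𝒲.W i ⊓ 𝒲.W j) (g i j))
      ((pullTriv f (c i)).restrict (f.preimage_mono (inf_le_left : 𝒲.W i ⊓ 𝒲.W j ≤ 𝒲.W i)))
  rw [pullTriv_restrict f (c j) (inf_le_right : 𝒲.W i ⊓ 𝒲.W j ≤ 𝒲.W j),
    pullTriv_restrict f (c i) (inf_le_left : 𝒲.W i ⊓ 𝒲.W j ≤ 𝒲.W i), h i j, pullTriv_smul]

/-- Pullback of cocycles. -/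
noncomputable def pullbackZ1 : Z1 𝒲 →* Z1 (𝒲.pullback f) where
  toFun g := ⟨pullbackC1 f g.1, by
    obtain ⟨P, c, h⟩ := exists_hasCocycle g
    exact (h.pullback f).isCocycle⟩
  map_one' := by
    apply Subtype.ext
    funext i j
    exact map_one (appU f (𝒲.W i ⊓ 𝒲.W j))
  map_mul' g g' := by
    apply Subtype.ext
    funext i j
    exact map_mul (appU f (𝒲.W i ⊓ 𝒲.W j)) (g.1 i j) (g'.1 i j)

/-- `Pic.map` on Čech cocycles. -/
theorem map_toPic (g : Z1 𝒲) :
    Pic.map f (toPic 𝒲 g) = toPic (𝒲.pullback f) (pullbackZ1 f g) := by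
  obtain ⟨P, c, h⟩ := exists_hasCocycle g
  rw [toPic_eq_mk g h, toPic_eq_mk (pullbackZ1 f g) (h.pullback f), Pic.map_mk]

end Pullback

end Fermat.Agent.AV.Pic38
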