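/-
CELL AV (S26/S27), brick CUBE (a): pure algebra of the third difference `Θ_F(x,y,z)` of a map
`F : G → P` between commutative groups (cocycle identity, symmetry, vanishing, multiplicativity),
and the quadratic recursion `a (n+2) a n = a (n+1)^2 c^2 ⇒ a n = c^(n^2)`.  Mathlib only.
-/
import Mathlib

set_option autoImplicit false

namespace Fermat.Agent.AV.Pic38.CubeAlg

section Additive

variable {G Q : Type*} [AddCommGroup G] [AddCommGroup Q] (F : G → Q)

/-- The third difference of a map between commutative groups (additive target). -/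
def athetaFn (x y z : G) : Q :=
  F (x + y + z) - F (x + y) - F (x + z) - F (y + z) + F x + F y + F z

lemma athetaFn_cocycle (x w y z : G) :
    athetaFn F (x + w) y z + athetaFn F x w z = athetaFn F x (w + y) z + athetaFn F w y z := by
  unfold athetaFn
  have e1 : x + w + y + z = x + (w + y) + z := by abel
  have e2 : x + w + y = x + (w + y) := by abel
  rw [e1, e2]
  abel

lemma athetaFn_comm₁₂ (x y z : G) : athetaFn F x y z = athetaFn F y x z := by
  unfold athetaFn
  rw [add_comm x y]
  abel

lemma athetaFn_comm₂₃ (x y z : G) : athetaFn F x y z = athetaFn F x z y := by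
  unfold athetaFn
  rw [add_right_comm x y z, add_comm y z]
  abel

lemma athetaFn_zero_left (h0 : F 0 = 0) (y z : G) : athetaFn F 0 y z = 0 := by
  unfold athetaFn
  simp only [zero_add, h0]
  abel

lemma athetaFn_add (F' : G → Q) (x y z : G) :
    athetaFn (fun g => F g + F' g) x y z = athetaFn F x y z + athetaFn F' x y z := by
  unfold athetaFn
  dsimp only
  abel

lemma athetaFn_nsmul (n : ℕ) (x y z : G) :
    athetaFn (fun g => n • F g) x y z = n • athetaFn F x y z := by
  unfold athetaFn
  dsimp only
  simp only [smul_add, smul_sub]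

end Additive

variable {G P : Type*} [AddCommGroup G] [CommGroup P] (F : G → P)

/-- The third difference `Θ_F(x,y,z)` of a map from an additive to a multiplicative commutative
group. -/
def theta (x y z : G) : P :=
  F (x + y + z) / F (x + y) / F (x + z) / F (y + z) * F x * F y * F z

lemma theta_eq (x y z : G) :
    theta F x y z = Additive.toMul (athetaFn (fun g => Additive.ofMul (F g)) x y z) := rfl

lemma theta_comm₁₂ (x y z : G) : theta F x y z = theta F y x z :=
  athetaFn_comm₁₂ (fun g => Additive.ofMul (F g)) x y z

lemma theta_comm₂₃ (x y z : G) : theta F x y z = theta F x z y :=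
  athetaFn_comm₂₃ (fun g => Additive.ofMul (F g)) x y z

lemma theta_zero_left (h0 : F 0 = 1) (y z : G) : theta F 0 y z = 1 :=
  athetaFn_zero_left (fun g => Additive.ofMul (F g)) h0 y z

lemma theta_zero_mid (h0 : F 0 = 1) (x z : G) : theta F x 0 z = 1 := by
  rw [theta_comm₁₂, theta_zero_left F h0]

lemma theta_zero_right (h0 : F 0 = 1) (x y : G) : theta F x y 0 = 1 := by
  rw [theta_comm₂₃, theta_zero_mid F h0]

/-- The cocycle identity for the third difference. -/
lemma theta_cocycle (x w y z : G) :
    theta F (x + w) y z * theta F x w z = theta F x (w + y) z * theta F w y z :=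
  athetaFn_cocycle (fun g => Additive.ofMul (F g)) x w y z

/-- If `Θ(a,-,-)` and `Θ(b,-,-)` vanish identically then so does `Θ(a+b,-,-)`. -/
lemma theta_add_left {a b : G} (ha : ∀ y z, theta F a y z = 1) (hb : ∀ y z, theta F b y z = 1)
    (y z : G) : theta F (a + b) y z = 1 := by
  have h := theta_cocycle F a b y z
  rw [ha, ha, hb, mul_one, mul_one] at h
  exact h

/-- Multiplicativity of the third difference in `F`. -/
lemma theta_mul (F' : G → P) (x y z : G) :
    theta (fun g => F g * F' g) x y z = theta F x y z * theta F' x y z :=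
  athetaFn_add (fun g => Additive.ofMul (F g)) (fun g => Additive.ofMul (F' g)) x y z

lemma theta_pow (n : ℕ) (x y z : G) :
    theta (fun g => F g ^ n) x y z = theta F x y z ^ n :=
  athetaFn_nsmul (fun g => Additive.ofMul (F g)) n x y z

/-- Post-composition with a group homomorphism. -/
lemma map_theta {P' : Type*} [CommGroup P'] (φ : P →* P') (x y z : G) :
    φ (theta F x y z) = theta (fun g => φ (F g)) x y z := by
  unfold theta
  simp only [map_mul, map_div]

/-- The quadratic recursion: `a (n+2) * a n = a (n+1)^2 * c^2`, `a 0 = 1`, `a 1 = c` force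
`a n = c^(n^2)`. -/
lemma eq_pow_sq_of_rec (a : ℕ → P) (c : P) (h0 : a 0 = 1) (h1 : a 1 = c)
    (hrec : ∀ n, a (n + 2) * a n = a (n + 1) ^ 2 * c ^ 2) : ∀ n, a n = c ^ (n ^ 2) := by
  intro n
  induction n using Nat.strong_induction_on with
  | _ n ih =>
    match n with
    | 0 => simpa using h0
    | 1 => simpa using h1
    | (k + 2) =>
      have hk := ih k (by omega)
      have hk1 := ih (k + 1) (by omega)
      have h := hrec k
      rw [hk, hk1] at h
      have : a (k + 2) = (c ^ ((k + 1) ^ 2)) ^ 2 * c ^ 2 * (c ^ (k ^ 2))⁻¹ := by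
        rw [← h, mul_inv_cancel_right]
      rw [this, ← pow_mul, ← pow_add, eq_comm]
      rw [eq_mul_inv_iff_mul_eq, ← pow_add]
      congr 1
      ring

end Fermat.Agent.AV.Pic38.CubeAlg
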