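/-
CELL AV (S26/S27), brick CUBE step (S4): Lemma D for the Picard group.  If `f : X ⟶ Y` is
universally closed and dominant between integral schemes with `Y` normal, a class in `Pic Y` with
trivial pullback to `X` is killed by `degree f`.  (helper43's cocycle form + the Čech description.)
-/
import Fermat.Agent.AV.Pic38.Cech
import Fermat.Agent.AV.NormD43.Main

set_option autoImplicit false

universe u

open CategoryTheory AlgebraicGeometry TopologicalSpace Opposite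

namespace Fermat.Agent.AV.Pic38

open Fermat.Agent.Jac.ModGlue88 LocalIsoU

variable {X Y : Scheme.{u}}

/-- Every open cover can be refined to a cover by nonempty affine opens indexed by the points. -/
lemma Cover.exists_affine_refinement (𝒲 : Cover Y) :
    ∃ (𝒱 : Cover Y) (ρ : 𝒱.ι → 𝒲.ι), (∀ i, 𝒱.W i ≤ 𝒲.W (ρ i)) ∧
      (∀ i, IsAffineOpen (𝒱.W i)) ∧ ∀ i, ((𝒱.W i : Y.Opens) : Set Y).Nonempty := by
  have h : ∀ y : Y, ∃ (i : 𝒲.ι) (V : Y.Opens), IsAffineOpen V ∧ y ∈ V ∧ V ≤ 𝒲.W i := by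
    intro y
    have hy : y ∈ iSup 𝒲.W := by rw [𝒲.cover]; trivial
    obtain ⟨i, hi⟩ := TopologicalSpace.Opens.mem_iSup.mp hy
    obtain ⟨V, hV, hyV, hVW⟩ := TopologicalSpace.Opens.isBasis_iff_nbhd.mp Y.isBasis_affineOpens hi
    exact ⟨i, V, hV, hyV, hVW⟩
  choose ρ V hV hyV hVW using h
  exact ⟨Cover.ofNhds V hyV, ρ, hVW, hV, fun y => ⟨y, hyV y⟩⟩

/-- **Lemma D for the Picard group**: if `f : X ⟶ Y` is universally closed and dominant, `X` and
`Y` integral, `Y` normal, then a class `a ∈ Pic Y` whose pullback to `X` is trivial is killed by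
the degree of `f`. -/
theorem pow_degree_eq_one_of_map_eq_one (f : X ⟶ Y) [IsIntegral X] [IsIntegral Y]
    [UniversallyClosed f] [IsDominant f]
    (hnorm : ∀ V : Y.Opens, IsAffineOpen V → IsIntegrallyClosed Γ(Y, V))
    (a : Pic Y) (ha : Pic.map f a = 1) : a ^ NormD43.degree f = 1 := by
  obtain ⟨𝒲, g₀, rfl⟩ := exists_toPic_eq a
  obtain ⟨𝒱, ρ, hρ, haff, hne⟩ := 𝒲.exists_affine_refinement
  rw [← toPic_refine ρ hρ g₀] at ha ⊢
  set g := refine ρ hρ g₀ with hg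
  rw [map_toPic, toPic_eq_one_iff] at ha
  obtain ⟨h, hh⟩ := ha
  obtain ⟨b, hb⟩ := NormD43.exists_units_pow_degree f hnorm 𝒱.W haff hne
    (fun i j => (((g.1 i j)⁻¹ : (Γ(Y, 𝒱.W i ⊓ 𝒱.W j))ˣ) : Γ(Y, 𝒱.W i ⊓ 𝒱.W j))) h (by
      intro i j
      have key : ∀ {G : Type u} [Group G] (F Hj Hi : G), F = Hj * Hi⁻¹ → Hi = F⁻¹ * Hj := by
        intro G _ F Hj Hi hF
        subst hF
        group
      have h2 := key _ _ _ (hh i j)
      change _ = (appU f (𝒱.W i ⊓ 𝒱.W j) (g.1 i j))⁻¹ * _ at h2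
      rw [← map_inv] at h2
      exact congrArg Units.val h2)
  rw [← map_pow, toPic_eq_one_iff]
  refine ⟨b, fun i j => ?_⟩
  have h3 : resU Y (inf_le_left : 𝒱.W i ⊓ 𝒱.W j ≤ 𝒱.W i) (b i) =
      ((g.1 i j)⁻¹) ^ NormD43.degree f *
        resU Y (inf_le_right : 𝒱.W i ⊓ 𝒱.W j ≤ 𝒱.W j) (b j) := by
    apply Units.ext
    exact hb i j
  change (g.1 i j) ^ NormD43.degree f = _
  rw [h3, inv_pow, mul_inv, inv_inv, mul_comm ((g.1 i j) ^ NormD43.degree f), ← mul_assoc,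
    mul_inv_cancel, one_mul]

end Fermat.Agent.AV.Pic38
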