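import Fermat.Agent.AV.Pic38.PtPic
import Fermat.Agent.AV.Pic38.NormPic
import Fermat.Agent.AV.Curv33.Iface

/-
AV programme, brick CUBE: the theorem of the cube up to torsion, in functor-of-points form.

* `CurveClaim G hc L X`     : (c) the cube class of `L` dies when its first argument factors
                              through the pointed curve `X` (to be proved from CCUBE).
* `thetaPt_sumPt_eq_one`    : (d) the same for the sum map of a list of curves.
* `CubeCover G l`           : (e) data: a weakly universal triple product `W3` of `A` and a dominant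
                              universally closed `π : T1 ⟶ W3` whose first point factors through
                              the sum map of `l`.
* `thetaPt_pow_degree_eq_one` : cube classes of `L` are killed by `δ = deg π`, for all `T`-points.
* `map_schemeNsmul_eq_pow_sq` : (f) for symmetric `L'` with trivial cube classes,
                              `[n]^* L' = L'^(n²)`.
-/

set_option autoImplicit false

universe u

open CategoryTheory CategoryTheory.Limits AlgebraicGeometry TopologicalSpace Opposite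
  NeronModelInfra GoodReductionJacobian

namespace Fermat.Agent.AV.Pic38

open Fermat.Agent.AV.Curv33

variable {K : Type u} [Field K] {A : Scheme.{u}} {f : A ⟶ Spec (CommRingCat.of K)}
  (G : RelativeGroupLaw K f) (hc : G.IsCommutative)

lemma aux_rec_add {Q : Type*} [AddCommGroup Q] {a0 a1 a2 c d : Q}
    (h : a1 - a2 - a0 - 0 + a1 + c + d = 0) : a2 + a0 = 2 • a1 + (c + d) := by
  have : a2 + a0 = (a1 - a2 - a0 - 0 + a1 + c + d) + (a2 + a0) := by rw [h, zero_add]
  rw [this]
  abel

lemma aux_rec_mul {P : Type*} [CommGroup P] {a0 a1 a2 c d : P}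
    (h : a1 / a2 / a0 / 1 * a1 * c * d = 1) : a2 * a0 = a1 ^ 2 * (c * d) :=
  aux_rec_add (Q := Additive P) h

/-- **(c) The curve claim** for a pointed curve `X` mapping to `A`: the cube class of `L` vanishes
as soon as its first argument factors through `X`.  (Proved from the curve-cube theorem CCUBE.) -/
def CurveClaim (L : Pic A) (X : CurveTo f (G.one (𝟙 (Spec (CommRingCat.of K))))) : Prop :=
  ∀ {T : Scheme.{u}} (t : T ⟶ Spec (CommRingCat.of K)) (c : SchemeHomOver t X.c)
    (w z : Pts G hc t),
    thetaPt G hc L (Pts.of G hc (schemeHomOverComp c.1 c.2 X.φ)) w z = 1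

variable {G hc}

/-- **(d) The list claim**: the cube class of `L` vanishes as soon as its first argument factors
through the sum map of a list of curves satisfying the curve claim. -/
theorem thetaPt_sumPt_eq_one (L : Pic A)
    (l : List (CurveTo f (G.one (𝟙 (Spec (CommRingCat.of K))))))
    (hQ : ∀ X ∈ l, CurveClaim G hc L X) {T : Scheme.{u}} (t : T ⟶ Spec (CommRingCat.of K))
    (v : SchemeHomOver t (prodHom l)) (y z : Pts G hc t) :
    thetaPt G hc L (Pts.of G hc (schemeHomOverComp v.1 v.2 (sumPt G l))) y z = 1 := by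
  induction l generalizing T with
  | nil =>
    have h0 : Pts.of G hc (schemeHomOverComp v.1 v.2 (sumPt G ([] : List (CurveTo f _)))) =
        (0 : Pts G hc t) := G.one_natural _ _ _ _
    rw [h0, thetaPt_zero_left]
  | cons X l ih =>
    let c : SchemeHomOver t X.c := ⟨v.1 ≫ prodFst X l, by
      rw [Category.assoc, prodFst_c]; exact v.2⟩
    let v' : SchemeHomOver t (prodHom l) := ⟨v.1 ≫ prodSnd X l, by
      rw [Category.assoc, prodSnd_hom]; exact v.2⟩
    have hsum : Pts.of G hc (schemeHomOverComp v.1 v.2 (sumPt G (X :: l))) =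
        Pts.of G hc (schemeHomOverComp c.1 c.2 X.φ) +
          Pts.of G hc (schemeHomOverComp v'.1 v'.2 (sumPt G l)) := by
      rw [sumPt_cons, G.mul_natural]
      rfl
    have hX : CurveClaim G hc L X := hQ X (List.mem_cons_self)
    have hl : ∀ Y ∈ l, CurveClaim G hc L Y := fun Y hY => hQ Y (List.mem_cons_of_mem _ hY)
    have hcoc := thetaPt_cocycle L (Pts.of G hc (schemeHomOverComp c.1 c.2 X.φ))
      (Pts.of G hc (schemeHomOverComp v'.1 v'.2 (sumPt G l))) y z
    rw [hX t c, hX t c, ih hl t v' y z, mul_one, mul_one] at hcoc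
    rw [hsum, hcoc]

/-- **(e) Data for the universal case**: a triple product `W3` of `A` (weakly universal), and a
dominant universally closed morphism `π` onto it from an integral scheme `T1` on which the first
universal point factors through the sum map of `l`. -/
structure CubeCover (G : RelativeGroupLaw K f)
    (l : List (CurveTo f (G.one (𝟙 (Spec (CommRingCat.of K)))))) where
  W3 : Scheme.{u}
  w3 : W3 ⟶ Spec (CommRingCat.of K)
  p1 : SchemeHomOver w3 f
  p2 : SchemeHomOver w3 f
  p3 : SchemeHomOver w3 f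
  univ : ∀ {T : Scheme.{u}} (t : T ⟶ Spec (CommRingCat.of K)) (x y z : SchemeHomOver t f),
    ∃ (ψ : T ⟶ W3) (hψ : ψ ≫ w3 = t), schemeHomOverComp ψ hψ p1 = x ∧
      schemeHomOverComp ψ hψ p2 = y ∧ schemeHomOverComp ψ hψ p3 = z
  T1 : Scheme.{u}
  t1 : T1 ⟶ Spec (CommRingCat.of K)
  v : SchemeHomOver t1 (prodHom l)
  π : T1 ⟶ W3
  hπ : π ≫ w3 = t1
  hπ1 : schemeHomOverComp π hπ p1 = schemeHomOverComp v.1 v.2 (sumPt G l)
  intT1 : IsIntegral T1
  intW3 : IsIntegral W3
  uc : UniversallyClosed π
  dom : IsDominant π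
  norm : ∀ V : W3.Opens, IsAffineOpen V → IsIntegrallyClosed Γ(W3, V)

attribute [instance] CubeCover.intT1 CubeCover.intW3 CubeCover.uc CubeCover.dom

/-- The degree `δ` of a cube cover. -/
noncomputable def CubeCover.degree
    {l : List (CurveTo f (G.one (𝟙 (Spec (CommRingCat.of K)))))} (Cv : CubeCover G l) : ℕ :=
  NormD43.degree Cv.π

/-- **(e) The theorem of the cube up to `δ`-torsion**, in functor-of-points form. -/
theorem thetaPt_pow_degree_eq_one (L : Pic A)
    {l : List (CurveTo f (G.one (𝟙 (Spec (CommRingCat.of K)))))} (Cv : CubeCover G l)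
    (hQ : ∀ X ∈ l, CurveClaim G hc L X) {T : Scheme.{u}} (t : T ⟶ Spec (CommRingCat.of K))
    (x y z : Pts G hc t) : thetaPt G hc L x y z ^ Cv.degree = 1 := by
  -- the universal cube class
  set Θ₀ := thetaPt G hc L (Pts.of G hc Cv.p1) (Pts.of G hc Cv.p2) (Pts.of G hc Cv.p3) with hΘ₀
  have h1 : Pic.map Cv.π Θ₀ = 1 := by
    rw [hΘ₀, map_thetaPt L Cv.π Cv.hπ]
    have : Pts.comp (G := G) (hc := hc) Cv.π Cv.hπ (Pts.of G hc Cv.p1) =
        Pts.of G hc (schemeHomOverComp Cv.v.1 Cv.v.2 (sumPt G l)) := Cv.hπ1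
    rw [this]
    exact thetaPt_sumPt_eq_one L l hQ Cv.t1 Cv.v _ _
  have h2 : Θ₀ ^ Cv.degree = 1 := pow_degree_eq_one_of_map_eq_one Cv.π Cv.norm Θ₀ h1
  obtain ⟨ψ, hψ, hx, hy, hz⟩ := Cv.univ t x y z
  have h3 : thetaPt G hc L x y z = Pic.map ψ Θ₀ := by
    rw [hΘ₀, map_thetaPt L ψ hψ]
    congr 1
    · exact hx.symm
    · exact hy.symm
    · exact hz.symm
  rw [h3, ← map_pow, h2, map_one]

/-- **(f) The `n²` formula**: if the cube class of `L'` vanishes identically on `A`-valued points
and `L'` is symmetric, then `[n]^* L' = L'^(n²)`. -/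
theorem map_schemeNsmul_eq_pow_sq (L' : Pic A)
    (hΘ : ∀ x y z : Pts G hc f, thetaPt G hc L' x y z = 1)
    (hsym : Pic.map (G.inv f RelativeGroupLaw.idPoint).1 L' = L') (n : ℕ) :
    Pic.map (G.schemeNsmul n) L' = L' ^ (n ^ 2) := by
  let ι : Pts G hc f := Pts.of G hc RelativeGroupLaw.idPoint
  let P : ℕ → Pts G hc f := fun n => Pts.of G hc (G.nsmul f n RelativeGroupLaw.idPoint)
  have hP0 : P 0 = 0 := rfl
  have hPs : ∀ n, P (n + 1) = P n + ι := fun n => rfl
  have hι : ptPic G hc L' ι = L' := by
    change Pic.map (𝟙 A) L' = L'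
    rw [Pic.map_id]; rfl
  have hneg : ptPic G hc L' (-ι) = L' := hsym
  have key := CubeAlg.eq_pow_sq_of_rec (fun n => ptPic G hc L' (P n)) L'
    (by change ptPic G hc L' (P 0) = 1; rw [hP0, ptPic_zero])
    (by change ptPic G hc L' (P 1) = L'; rw [hPs, hP0, zero_add, hι])
    (by
      intro n
      have h := hΘ (P (n + 1)) ι (-ι)
      unfold thetaPt CubeAlg.theta at h
      have e1 : P (n + 1) + ι + -ι = P (n + 1) := by abel
      have e2 : P (n + 1) + ι = P (n + 2) := (hPs (n + 1)).symm
      have e3 : P (n + 1) + -ι = P n := by rw [hPs]; abel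
      have e4 : ι + -ι = 0 := by abel
      rw [e1, e2, e3, e4, ptPic_zero, hι, hneg] at h
      have h' := aux_rec_mul h
      change ptPic G hc L' (P (n + 2)) * ptPic G hc L' (P n) = ptPic G hc L' (P (n + 1)) ^ 2 * L' ^ 2
      rw [h', pow_two L'])
  exact key n

end Fermat.Agent.AV.Pic38
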