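/-
CELL AV (S26/S27), brick CUBE (b): the functor-of-points formalism for the cube.
`Pts G hc t` = the additive commutative group of `T`-points of a commutative `RelativeGroupLaw`,
`ptPic L x = Pic.map x.1 L`, the cube class `thetaPt L x y z ∈ Pic T`, its naturality, vanishing
when one argument is `0` (uses `Pic (Spec K) = 1`), cocycle identity.
-/
import Fermat.Agent.AV.Pic38.Map
import Fermat.Agent.AV.Pic38.CubeAlg
import Fermat.Prelude.Def_GoodReductionJacobian_RelativeGroupLawKernel

set_option autoImplicit false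

universe u

open CategoryTheory CategoryTheory.Limits AlgebraicGeometry TopologicalSpace Opposite
  NeronModelInfra GoodReductionJacobian

namespace Fermat.Agent.AV.Pic38

open Fermat.Agent.Jac.ModGlue88

/-- A local isomorphism over the whole space is a global isomorphism. -/
lemma LocalIso.nonempty_iso_of_top {X : Scheme.{u}} {M N : X.Modules} (α : LocalIso M N ⊤) :
    Nonempty (M ≅ N) := by
  obtain ⟨e, -⟩ := LocalIso.exists_iso_of_cover (fun _ : Unit => (⊤ : X.Opens))
    (by simp) (fun _ => α) (fun _ _ => rfl)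
  exact ⟨e⟩

/-- The Picard group of the spectrum of a field is trivial. -/
theorem Pic.eq_one_of_field (K : Type u) [Field K] (a : Pic (Spec (CommRingCat.of K))) : a = 1 := by
  induction a using Pic.ind with | _ M hM => ?_
  rw [Pic.mk_eq_one_iff]
  have x : Spec (CommRingCat.of K) := (⊥ : PrimeSpectrum K)
  obtain ⟨W, -, hxW, ⟨α⟩⟩ := (isInvertible_iff_isLocallyTrivial.mp hM) x trivial
  have hW : W = ⊤ := by
    apply top_le_iff.mp
    intro y _
    have : y = x := Subsingleton.elim (α := PrimeSpectrum K) y x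
    rw [this]
    exact hxW
  subst hW
  exact LocalIso.nonempty_iso_of_top α

variable {K : Type u} [Field K] {A : Scheme.{u}} {f : A ⟶ Spec (CommRingCat.of K)}

/-- `T`-points of a commutative relative group law, as an additive commutative group. -/
def Pts (G : RelativeGroupLaw K f) (_ : G.IsCommutative) {T : Scheme.{u}}
    (t : T ⟶ Spec (CommRingCat.of K)) : Type u := SchemeHomOver t f

namespace Pts

variable (G : RelativeGroupLaw K f) (hc : G.IsCommutative)

/-- The underlying point. -/
def toHomOver {T : Scheme.{u}} {t : T ⟶ Spec (CommRingCat.of K)} (x : Pts G hc t) :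
    SchemeHomOver t f := x

/-- A point as an element of the group of points. -/
def of {T : Scheme.{u}} {t : T ⟶ Spec (CommRingCat.of K)} (x : SchemeHomOver t f) :
    Pts G hc t := x

/-- The commutative group structure on points (multiplicative form). -/
@[reducible] def commGroupAux {T : Scheme.{u}} (t : T ⟶ Spec (CommRingCat.of K)) :
    CommGroup (SchemeHomOver t f) :=
  { RelativeGroupLaw.pointGroup G t with mul_comm := hc t }

noncomputable instance {T : Scheme.{u}} (t : T ⟶ Spec (CommRingCat.of K)) :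
    AddCommGroup (Pts G hc t) :=
  letI := commGroupAux G hc t
  inferInstanceAs (AddCommGroup (Additive (SchemeHomOver t f)))

variable {G hc}

lemma add_def {T : Scheme.{u}} {t : T ⟶ Spec (CommRingCat.of K)} (x y : Pts G hc t) :
    x + y = of G hc (G.mul t x y) := rfl

lemma zero_def {T : Scheme.{u}} (t : T ⟶ Spec (CommRingCat.of K)) :
    (0 : Pts G hc t) = of G hc (G.one t) := rfl

lemma neg_def {T : Scheme.{u}} {t : T ⟶ Spec (CommRingCat.of K)} (x : Pts G hc t) :
    -x = of G hc (G.inv t x) := rfl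

/-- Precomposition with a morphism of test schemes, as a homomorphism of groups of points. -/
noncomputable def comp {T T' : Scheme.{u}} {t : T ⟶ Spec (CommRingCat.of K)}
    {t' : T' ⟶ Spec (CommRingCat.of K)} (ψ : T' ⟶ T) (hψ : ψ ≫ t = t') :
    Pts G hc t →+ Pts G hc t' where
  toFun x := schemeHomOverComp ψ hψ x
  map_zero' := G.one_natural t t' ψ hψ
  map_add' x y := G.mul_natural t t' ψ hψ x y

@[simp] lemma comp_coe {T T' : Scheme.{u}} {t : T ⟶ Spec (CommRingCat.of K)}
    {t' : T' ⟶ Spec (CommRingCat.of K)} (ψ : T' ⟶ T) (hψ : ψ ≫ t = t') (x : Pts G hc t) :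
    (comp ψ hψ x).1 = ψ ≫ x.1 := rfl

end Pts

variable (G : RelativeGroupLaw K f) (hc : G.IsCommutative)

/-- The value of a class `L ∈ Pic A` at a `T`-point of `A`: the pullback class in `Pic T`. -/
noncomputable def ptPic (L : Pic A) {T : Scheme.{u}} {t : T ⟶ Spec (CommRingCat.of K)}
    (x : Pts G hc t) : Pic T := Pic.map x.1 L

variable {G hc}

lemma map_ptPic (L : Pic A) {T T' : Scheme.{u}} {t : T ⟶ Spec (CommRingCat.of K)}
    {t' : T' ⟶ Spec (CommRingCat.of K)} (ψ : T' ⟶ T) (hψ : ψ ≫ t = t') (x : Pts G hc t) :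
    Pic.map ψ (ptPic G hc L x) = ptPic G hc L (Pts.comp ψ hψ x) :=
  (Pic.map_comp_apply ψ x.1 L).symm

lemma ptPic_zero (L : Pic A) {T : Scheme.{u}} (t : T ⟶ Spec (CommRingCat.of K)) :
    ptPic G hc L (0 : Pts G hc t) = 1 := by
  have h := G.one_natural (𝟙 (Spec (CommRingCat.of K))) t t (Category.comp_id t)
  have h1 : (G.one t).1 = t ≫ (G.one (𝟙 (Spec (CommRingCat.of K)))).1 := by
    rw [← h]; rfl
  change Pic.map (G.one t).1 L = 1
  rw [h1, Pic.map_comp_apply, Pic.eq_one_of_field K (Pic.map _ L), map_one]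

lemma ptPic_mul (L L' : Pic A) {T : Scheme.{u}} {t : T ⟶ Spec (CommRingCat.of K)}
    (x : Pts G hc t) : ptPic G hc (L * L') x = ptPic G hc L x * ptPic G hc L' x :=
  map_mul _ _ _

lemma ptPic_pow (L : Pic A) (n : ℕ) {T : Scheme.{u}} {t : T ⟶ Spec (CommRingCat.of K)}
    (x : Pts G hc t) : ptPic G hc (L ^ n) x = ptPic G hc L x ^ n :=
  map_pow _ _ _

variable (G hc)

/-- The cube class `Θ_L(x,y,z) ∈ Pic T` of three `T`-points. -/
noncomputable def thetaPt (L : Pic A) {T : Scheme.{u}} {t : T ⟶ Spec (CommRingCat.of K)}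
    (x y z : Pts G hc t) : Pic T := CubeAlg.theta (ptPic G hc L) x y z

variable {G hc}

/-- Naturality of the cube class in the test scheme. -/
lemma map_thetaPt (L : Pic A) {T T' : Scheme.{u}} {t : T ⟶ Spec (CommRingCat.of K)}
    {t' : T' ⟶ Spec (CommRingCat.of K)} (ψ : T' ⟶ T) (hψ : ψ ≫ t = t') (x y z : Pts G hc t) :
    Pic.map ψ (thetaPt G hc L x y z) =
      thetaPt G hc L (Pts.comp ψ hψ x) (Pts.comp ψ hψ y) (Pts.comp ψ hψ z) := by
  unfold thetaPt
  rw [CubeAlg.map_theta]
  unfold CubeAlg.theta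
  simp only [map_ptPic L ψ hψ, map_add]

lemma thetaPt_zero_left (L : Pic A) {T : Scheme.{u}} {t : T ⟶ Spec (CommRingCat.of K)}
    (y z : Pts G hc t) : thetaPt G hc L 0 y z = 1 :=
  CubeAlg.theta_zero_left _ (ptPic_zero L t) y z

lemma thetaPt_zero_mid (L : Pic A) {T : Scheme.{u}} {t : T ⟶ Spec (CommRingCat.of K)}
    (x z : Pts G hc t) : thetaPt G hc L x 0 z = 1 :=
  CubeAlg.theta_zero_mid _ (ptPic_zero L t) x z

lemma thetaPt_zero_right (L : Pic A) {T : Scheme.{u}} {t : T ⟶ Spec (CommRingCat.of K)}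
    (x y : Pts G hc t) : thetaPt G hc L x y 0 = 1 :=
  CubeAlg.theta_zero_right _ (ptPic_zero L t) x y

lemma thetaPt_pow (L : Pic A) (n : ℕ) {T : Scheme.{u}} {t : T ⟶ Spec (CommRingCat.of K)}
    (x y z : Pts G hc t) : thetaPt G hc (L ^ n) x y z = thetaPt G hc L x y z ^ n := by
  unfold thetaPt
  rw [← CubeAlg.theta_pow]
  congr 1
  funext g
  exact ptPic_pow L n g

lemma thetaPt_cocycle (L : Pic A) {T : Scheme.{u}} {t : T ⟶ Spec (CommRingCat.of K)}
    (x w y z : Pts G hc t) :
    thetaPt G hc L (x + w) y z * thetaPt G hc L x w z =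
      thetaPt G hc L x (w + y) z * thetaPt G hc L w y z :=
  CubeAlg.theta_cocycle _ x w y z

end Fermat.Agent.AV.Pic38
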